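/-
S56 / EA (Euler characteristic, algebraic half) / AddInv

`AddInv p G N` : an additive integer invariant of the finite dimensional `𝔽_p[G]`-modules on which
`N` acts trivially.  Basic consequences of additivity.  Pure algebra (only `SES`, `Fun`, `piRep`
from S55/Coh are used).
-/
import Fermat.Agent.S55.Coh.All

set_option autoImplicit false

noncomputable section

namespace Fermat.Agent.S56.EA

open Fermat.Agent.S55 Module

/-- An additive invariant of f.d. `𝔽_p[G]`-modules which are trivial on `N`. Only the middle term of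
the sequence carries hypotheses (they pass to sub and quotient). -/
structure AddInv (p : ℕ) [Fact p.Prime] (G : Type) [Group G] (N : Subgroup G) where
  e : ∀ {X : Type} [AddCommGroup X] [Module (ZMod p) X], Representation (ZMod p) G X → ℤ
  add : ∀ {A B C : Type} [AddCommGroup A] [Module (ZMod p) A] [AddCommGroup B]
    [Module (ZMod p) B] [AddCommGroup C] [Module (ZMod p) C] [FiniteDimensional (ZMod p) B]
    {ρA : Representation (ZMod p) G A} {ρB : Representation (ZMod p) G B}
    {ρC : Representation (ZMod p) G C}, (∀ n ∈ N, ρB n = 1) → SES ρA ρB ρC → e ρB = e ρA + e ρC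

variable {p : ℕ} [Fact p.Prime] {G : Type} [Group G] {N : Subgroup G} (a : AddInv p G N)

namespace AddInv

section basic
variable {X Y Z : Type} [AddCommGroup X] [Module (ZMod p) X] [AddCommGroup Y] [Module (ZMod p) Y]
  [AddCommGroup Z] [Module (ZMod p) Z]

/-- `e(0) = 0`.  (Apply `add` to `0 → X → X → X → 0` with all maps zero.) -/
theorem e_of_subsingleton [Subsingleton X] (ρ : Representation (ZMod p) G X) : a.e ρ = 0 := by
  let E : SES ρ ρ ρ :=
    { i := 0
      π := 0
      i_comm := fun _ _ => Subsingleton.elim _ _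
      π_comm := fun _ _ => Subsingleton.elim _ _
      inj := fun _ _ _ => Subsingleton.elim _ _
      surj := fun x => ⟨x, Subsingleton.elim _ _⟩
      exact := fun x => ⟨fun _ => ⟨x, Subsingleton.elim _ _⟩, fun _ => Subsingleton.elim _ _⟩ }
  have h := a.add (fun n _ => LinearMap.ext fun x => Subsingleton.elim _ _) E
  linarith

/-- isomorphism invariance.  (`0 → PUnit → X → Y → 0`, or `SES.ofSurj` + `e_of_subsingleton`.) -/
theorem e_congr [FiniteDimensional (ZMod p) X] {ρ : Representation (ZMod p) G X}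
    {σ : Representation (ZMod p) G Y} (hρ : ∀ n ∈ N, ρ n = 1) (φ : X ≃ₗ[ZMod p] Y)
    (hφ : ∀ g x, φ (ρ g x) = σ g (φ x)) : a.e ρ = a.e σ := by
  have h := a.add hρ (SES.ofSurj (φ : X →ₗ[ZMod p] Y) hφ φ.surjective)
  have : Subsingleton (LinearMap.ker (φ : X →ₗ[ZMod p] Y)) :=
    ⟨fun x y => Subtype.ext (φ.injective ((LinearMap.mem_ker.1 x.2).trans
      (LinearMap.mem_ker.1 y.2).symm))⟩
  rw [h, a.e_of_subsingleton, zero_add]

/-- kernel-image decomposition of an equivariant map. -/
theorem e_eq_ker_add_range [FiniteDimensional (ZMod p) X] {ρ : Representation (ZMod p) G X}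
    {σ : Representation (ZMod p) G Y} (hρ : ∀ n ∈ N, ρ n = 1) (φ : X →ₗ[ZMod p] Y)
    (hφ : ∀ g x, φ (ρ g x) = σ g (φ x)) :
    a.e ρ = a.e (kerRep φ hφ) +
      a.e (σ.subrepresentation (LinearMap.range φ) (range_le_comap φ hφ)) := by
  let E : SES (kerRep φ hφ) ρ (σ.subrepresentation (LinearMap.range φ) (range_le_comap φ hφ)) :=
    { i := (LinearMap.ker φ).subtype
      π := φ.rangeRestrict
      i_comm := fun _ _ => rfl
      π_comm := fun g x => Subtype.ext (hφ g x)
      inj := (LinearMap.ker φ).injective_subtype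
      surj := φ.surjective_rangeRestrict
      exact := by
        intro x
        constructor
        · intro hx
          exact ⟨⟨x, congrArg Subtype.val hx⟩, rfl⟩
        · rintro ⟨y, rfl⟩
          exact Subtype.ext y.2 }
  exact a.add hρ E

/-- the invariant of a subrepresentation only depends on the submodule. -/
theorem e_sub_congr (ρ : Representation (ZMod p) G X) {W W' : Submodule (ZMod p) X}
    (hW : ∀ g, W ≤ W.comap (ρ g)) (hW' : ∀ g, W' ≤ W'.comap (ρ g)) (h : W = W') :
    a.e (ρ.subrepresentation W hW) = a.e (ρ.subrepresentation W' hW') := by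
  subst h; rfl

/-- LEMMA A (exact pair).  `r : X → Y`, `r' : Y → X` equivariant with `ker r' = im r`,
`ker r = im r'`.  Then `e X = e Y`.
Proof: `e X = e (ker r) + e (im r)`, `e Y = e (ker r') + e (im r')` (`e_eq_ker_add_range`),
`kerRep` is by definition the subrepresentation on `LinearMap.ker`, then `e_sub_congr`. -/
theorem e_eq_of_exact_pair [FiniteDimensional (ZMod p) X] [FiniteDimensional (ZMod p) Y]
    {ρ : Representation (ZMod p) G X} {σ : Representation (ZMod p) G Y}
    (hρ : ∀ n ∈ N, ρ n = 1) (hσ : ∀ n ∈ N, σ n = 1)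
    (r : X →ₗ[ZMod p] Y) (hr : ∀ g x, r (ρ g x) = σ g (r x))
    (r' : Y →ₗ[ZMod p] X) (hr' : ∀ g y, r' (σ g y) = ρ g (r' y))
    (h1 : LinearMap.ker r' = LinearMap.range r) (h2 : LinearMap.ker r = LinearMap.range r') :
    a.e ρ = a.e σ := by
  have e1 := a.e_eq_ker_add_range hρ r hr
  have e2 := a.e_eq_ker_add_range hσ r' hr'
  have e3 : a.e (kerRep r hr) =
      a.e (ρ.subrepresentation (LinearMap.range r') (range_le_comap r' hr')) :=
    a.e_sub_congr ρ _ _ h2
  have e4 : a.e (kerRep r' hr') =
      a.e (σ.subrepresentation (LinearMap.range r) (range_le_comap r hr)) :=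
    a.e_sub_congr σ _ _ h1
  rw [e1, e2, e3, e4, add_comm]

/-- binary products. (`prodSES`) -/
theorem e_prod [FiniteDimensional (ZMod p) X] [FiniteDimensional (ZMod p) Y]
    {ρ : Representation (ZMod p) G X} {σ : Representation (ZMod p) G Y}
    (hρ : ∀ n ∈ N, ρ n = 1) (hσ : ∀ n ∈ N, σ n = 1) : a.e (ρ.prod σ) = a.e ρ + a.e σ := by
  refine a.add (fun n hn => ?_) (SES.prodSES ρ σ)
  apply LinearMap.ext
  rintro ⟨x, y⟩
  simp [hρ n hn, hσ n hn]

end basic

end AddInv

end Fermat.Agent.S56.EA

end
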