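/-
S56 / EA / Chi : additivity of the global Euler characteristic (from `E = 0`, S55/D) and the additive invariant
   `e(ρ) = χ(ρ') + dim ρ^{c}`      (`ρ' = dualT ρ`, `c` an involution of `G`, `p` odd).
-/
import Fermat.Agent.S55.D.Main
import Fermat.Agent.S56.EA.AddInv

set_option autoImplicit false

noncomputable section

namespace Fermat.Agent.S56.EA

open Fermat.Agent.S55 Module

variable {p : ℕ} [Fact p.Prime] {𝒜 : Datum p}

section chi
variable (ax : 𝒜.Axioms)
variable {A B C : Type}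
  [AddCommGroup A] [Module (ZMod p) A] [FiniteDimensional (ZMod p) A]
  [AddCommGroup B] [Module (ZMod p) B] [FiniteDimensional (ZMod p) B]
  [AddCommGroup C] [Module (ZMod p) C] [FiniteDimensional (ZMod p) C]
  {ρA : Representation (ZMod p) 𝒜.G A} {ρB : Representation (ZMod p) 𝒜.G B}
  {ρC : Representation (ZMod p) 𝒜.G C} [Smooth 𝒜.L ρA] [Smooth 𝒜.L ρB] [Smooth 𝒜.L ρC]

include ax

/-- `χ` is additive, on the sequence and on its dual. -/
theorem chi_add_both (E : SES ρA ρB ρC) :
    𝒜.chi ρB = 𝒜.chi ρA + 𝒜.chi ρC ∧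
      𝒜.chi (𝒜.dualT ρB) = 𝒜.chi (𝒜.dualT ρA) + 𝒜.chi (𝒜.dualT ρC) := by
  let T := DualSES.of E (DualPair.canon 𝒜.ω ρA) (DualPair.canon 𝒜.ω ρB) (DualPair.canon 𝒜.ω ρC)
  have h1 := ax.chi_le_add T.E
  have h2 := ax.chi_le_add T.E'
  have h3 := ax.chiLoc_add T.E
  have eA : 𝒜.E ρA = 0 := le_antisymm (ax.E_le_zero ρA) (ax.E_nonneg ρA)
  have eB : 𝒜.E ρB = 0 := le_antisymm (ax.E_le_zero ρB) (ax.E_nonneg ρB)
  have eC : 𝒜.E ρC = 0 := le_antisymm (ax.E_le_zero ρC) (ax.E_nonneg ρC)
  simp only [Datum.E] at eA eB eC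
  constructor <;> linarith

end chi

/-- the invariants of the cyclic group generated by `c` are the fixed vectors of `c`. -/
theorem Chi_mem_H0_zpowers {G : Type} [Group G] (c : G) {X : Type} [AddCommGroup X]
    [Module (ZMod p) X] (ρ : Representation (ZMod p) G X) (x : X) :
    x ∈ H0 (rsub ρ (Subgroup.zpowers c)) ↔ ρ c x = x := by
  constructor
  · intro h
    exact h ⟨c, Subgroup.mem_zpowers c⟩
  · intro h
    let S : Subgroup G :=
      { carrier := {g | ρ g x = x}
        mul_mem' := by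
          intro a b ha hb
          show ρ (a * b) x = x
          rw [map_mul, Module.End.mul_apply, hb, ha]
        one_mem' := by
          show ρ 1 x = x
          rw [map_one, Module.End.one_apply]
        inv_mem' := by
          intro a ha
          show ρ a⁻¹ x = x
          have h1 : ρ a⁻¹ (ρ a x) = x := by
            rw [← Module.End.mul_apply, ← map_mul, inv_mul_cancel, map_one, Module.End.one_apply]
          rwa [ha] at h1 }
    have hS : Subgroup.zpowers c ≤ S := (Subgroup.zpowers_le).2 h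
    intro g
    exact hS g.2

/-- invariants under an involution are exact (`p` odd).
Proof: `B^c → C^c` is onto: lift `y` to `b`, take `2⁻¹ (b + c b)`; kernel = `A^c`; rank-nullity. -/
theorem finrank_H0_invol_add (hp2 : p ≠ 2) {G : Type} [Group G] (c : G) (hc : c * c = 1)
    {A B C : Type} [AddCommGroup A] [Module (ZMod p) A] [AddCommGroup B] [Module (ZMod p) B]
    [FiniteDimensional (ZMod p) B] [AddCommGroup C] [Module (ZMod p) C]
    {ρA : Representation (ZMod p) G A} {ρB : Representation (ZMod p) G B}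
    {ρC : Representation (ZMod p) G C} (E : SES ρA ρB ρC) :
    finrank (ZMod p) ↥(H0 (rsub ρB (Subgroup.zpowers c))) =
      finrank (ZMod p) ↥(H0 (rsub ρA (Subgroup.zpowers c))) +
        finrank (ZMod p) ↥(H0 (rsub ρC (Subgroup.zpowers c))) := by
  have hp : p.Prime := Fact.out
  have h2 : (2 : ZMod p) ≠ 0 := by
    intro h
    have h3 : ((2 : ℕ) : ZMod p) = 0 := by exact_mod_cast h
    rw [ZMod.natCast_eq_zero_iff] at h3
    exact hp2 ((Nat.prime_dvd_prime_iff_eq hp Nat.prime_two).1 h3)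
  let f : ↥(H0 (rsub ρB (Subgroup.zpowers c))) →ₗ[ZMod p] ↥(H0 (rsub ρC (Subgroup.zpowers c))) :=
    E.π.restrict (fun b hb => by
      rw [Chi_mem_H0_zpowers] at hb ⊢
      rw [← E.π_comm, hb])
  let g : ↥(H0 (rsub ρA (Subgroup.zpowers c))) →ₗ[ZMod p] ↥(H0 (rsub ρB (Subgroup.zpowers c))) :=
    E.i.restrict (fun a ha => by
      rw [Chi_mem_H0_zpowers] at ha ⊢
      rw [← E.i_comm, ha])
  have hf : ∀ b, ((f b : ↥(H0 (rsub ρC (Subgroup.zpowers c)))) : C) = E.π (b : B) := fun _ => rfl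
  have hg : ∀ a, ((g a : ↥(H0 (rsub ρB (Subgroup.zpowers c)))) : B) = E.i (a : A) := fun _ => rfl
  have hfsurj : LinearMap.range f = ⊤ := by
    rw [LinearMap.range_eq_top]
    intro y
    have hy : ρC c (y : C) = y := (Chi_mem_H0_zpowers c ρC _).1 y.2
    obtain ⟨b, hb⟩ := E.surj (y : C)
    have hcc : ρB c (ρB c b) = b := by
      rw [← Module.End.mul_apply, ← map_mul, hc, map_one, Module.End.one_apply]
    refine ⟨⟨(2 : ZMod p)⁻¹ • (b + ρB c b), ?_⟩, ?_⟩
    · rw [Chi_mem_H0_zpowers, map_smul, map_add, hcc, add_comm]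
    · apply Subtype.ext
      rw [hf]
      show E.π ((2 : ZMod p)⁻¹ • (b + ρB c b)) = y
      rw [map_smul, map_add, E.π_comm, hb, hy, ← two_smul (ZMod p) (y : C), smul_smul,
        inv_mul_cancel₀ h2, one_smul]
  have hginj : Function.Injective g := by
    intro a a' h
    apply Subtype.ext
    apply E.inj
    rw [← hg, ← hg, h]
  have hker : LinearMap.ker f = LinearMap.range g := by
    ext b
    rw [LinearMap.mem_ker, LinearMap.mem_range]
    constructor
    · intro h
      have h0 : E.π (b : B) = 0 := by rw [← hf, h]; rfl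
      obtain ⟨a, ha⟩ := (E.exact _).1 h0
      have hb : ρB c (b : B) = b := (Chi_mem_H0_zpowers c ρB _).1 b.2
      refine ⟨⟨a, ?_⟩, ?_⟩
      · rw [Chi_mem_H0_zpowers]
        apply E.inj
        rw [E.i_comm, ha, hb]
      · apply Subtype.ext
        rw [hg]
        exact ha
    · rintro ⟨a, rfl⟩
      apply Subtype.ext
      rw [hf, hg]
      exact (E.exact _).2 ⟨_, rfl⟩
  have h3 := LinearMap.finrank_range_add_finrank_ker f
  rw [hfsurj, finrank_top, hker, LinearMap.finrank_range_of_inj hginj] at h3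
  omega

/-- a representation which is trivial on an open subgroup is smooth. -/
theorem smooth_of_trivial_on {H : Type} [Group H] {L : Levels H} {N : Subgroup H}
    (hN : L.IsOpen N) {X : Type} [AddCommGroup X] [Module (ZMod p) X]
    {ρ : Representation (ZMod p) H X} (hρ : ∀ n ∈ N, ρ n = 1) : Smooth L ρ :=
  ⟨fun x => ⟨N, hN, fun s hs => by rw [hρ s hs]; rfl⟩⟩

/-- THE INVARIANT  `e(ρ) = χ(ρ') + dim ρ^{c}`. -/
def eulerInv (ax : 𝒜.Axioms) (hp2 : p ≠ 2) (N : Subgroup 𝒜.G) (hN : 𝒜.L.IsOpen N) (c : 𝒜.G)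
    (hc : c * c = 1) : AddInv p 𝒜.G N where
  e ρ := 𝒜.chi (𝒜.dualT ρ) + finrank (ZMod p) ↥(H0 (rsub ρ (Subgroup.zpowers c)))
  add := by
    intro A B C _ _ _ _ _ _ _ ρA ρB ρC hB E
    have : FiniteDimensional (ZMod p) A := FiniteDimensional.of_injective E.i E.inj
    have : FiniteDimensional (ZMod p) C := FiniteDimensional.of_surjective E.π E.surj
    have : Smooth 𝒜.L ρB := smooth_of_trivial_on hN hB
    have : Smooth 𝒜.L ρA := 𝒜.smooth_of_injective E.i E.i_comm E.inj
    have : Smooth 𝒜.L ρC := 𝒜.smooth_of_surjective E.π E.π_comm E.surj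
    have h1 := (chi_add_both ax E).2
    have h2 := finrank_H0_invol_add hp2 c hc E
    rw [h1, h2]
    push_cast
    ring

@[simp] lemma eulerInv_e (ax : 𝒜.Axioms) (hp2 : p ≠ 2) (N : Subgroup 𝒜.G) (hN : 𝒜.L.IsOpen N)
    (c : 𝒜.G) (hc : c * c = 1) {X : Type} [AddCommGroup X] [Module (ZMod p) X]
    (ρ : Representation (ZMod p) 𝒜.G X) :
    (eulerInv ax hp2 N hN c hc).e ρ =
      𝒜.chi (𝒜.dualT ρ) + finrank (ZMod p) ↥(H0 (rsub ρ (Subgroup.zpowers c))) := rfl

end Fermat.Agent.S56.EA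

end
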