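/-
S56 / EA / ArtinFin : Artin's induction theorem for the trivial character, in terms of fixed points.
(Mathlib only; pure finite group theory / counting.)

PROOF.  `⟨h⟩ := Subgroup.zpowers h`, `fix_H(g) := #{w ∈ Γ/H : g w = w}`.
(1) `|H| * fix_H(g) = #{x : Γ | x⁻¹ * g * x ∈ H}`   [x ↦ xH maps the right hand set onto the fixed points,
    fibres = cosets of `H`].
(2) `∃ b : Γ → ℚ, ∀ y, ∑ h with y ∈ ⟨h⟩, b h = 1`.  Downward induction on `k`:
    `P k : ∃ b, (∀ h, orderOf h < k → b h = 0) ∧ ∀ y, k ≤ orderOf y → ∑_{h, y ∈ ⟨h⟩} b h = 1`;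
    `P (|Γ|+1)` is trivial (`b = 0`); `P (k+1) → P k`: keep `b` on elements of order `> k` and put, for
    `orderOf h = k`, `b' h := (1 - ∑_{h', h ∈ ⟨h'⟩, orderOf h' > k} b h') / #{h'' | ⟨h''⟩ = ⟨h⟩}`.
    If `y ∈ ⟨h⟩` then `orderOf y ∣ orderOf h`, and `orderOf h = orderOf y` forces `⟨h⟩ = ⟨y⟩`.
(3) `∑_h b h * |⟨h⟩| * fix_{⟨h⟩}(g) = ∑_h b h * #{x | x⁻¹ g x ∈ ⟨h⟩} = ∑_x ∑_{h, x⁻¹ g x ∈ ⟨h⟩} b h = |Γ|`.
(4) multiply by a common denominator `D` of the `b h`: `c h := D * b h * |⟨h⟩|`, `n := D * |Γ|`.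
-/
import Mathlib

set_option autoImplicit false

noncomputable section

namespace Fermat.Agent.S56.EA

theorem ArtinFin_card_mul (Γ : Type) [Group Γ] [Fintype Γ] (H : Subgroup Γ) (g : Γ) :
    Nat.card H * Nat.card (MulAction.fixedBy (Γ ⧸ H) g)
      = Nat.card {x : Γ | x⁻¹ * g * x ∈ H} := by
  have e := QuotientGroup.preimageMkEquivSubgroupProdSet H (MulAction.fixedBy (Γ ⧸ H) g)
  have h1 : (QuotientGroup.mk ⁻¹' (MulAction.fixedBy (Γ ⧸ H) g) : Set Γ)
      = {x : Γ | x⁻¹ * g * x ∈ H} := by
    ext x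
    simp only [Set.mem_preimage, MulAction.mem_fixedBy, Set.mem_ofPred_eq]
    change (((g * x : Γ) : Γ ⧸ H) = (x : Γ ⧸ H)) ↔ _
    rw [QuotientGroup.eq, ← inv_mem_iff]
    simp [mul_assoc]
  rw [← h1, Nat.card_congr e, Nat.card_prod]

theorem ArtinFin_exists_b (Γ : Type) [Group Γ] [Fintype Γ] :
    ∃ b : Γ → ℚ, ∀ y : Γ, ∑ h : Γ, (open Classical in if y ∈ Subgroup.zpowers h then b h else 0) = 1 := by
  classical
  let P : ℕ → Prop := fun k => ∃ b : Γ → ℚ, (∀ h, orderOf h < k → b h = 0) ∧
      ∀ y, k ≤ orderOf y → ∑ h : Γ, (if y ∈ Subgroup.zpowers h then b h else 0) = 1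
  have hzp : ∀ {y h : Γ}, Subgroup.zpowers h = Subgroup.zpowers y → orderOf h = orderOf y := by
    intro y h e
    rw [← Nat.card_zpowers, ← Nat.card_zpowers, e]
  have step : ∀ k, P (k + 1) → P k := by
    rintro k ⟨b, hb0, hb1⟩
    set S : Γ → ℚ := fun y => ∑ h : Γ, (if y ∈ Subgroup.zpowers h then b h else 0) with hS
    set cnt : Γ → ℚ := fun y =>
      ((Finset.univ.filter (fun h : Γ => Subgroup.zpowers h = Subgroup.zpowers y)).card : ℚ)
      with hcnt
    have hScongr : ∀ {y h : Γ}, Subgroup.zpowers h = Subgroup.zpowers y → S h = S y := by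
      intro y h e
      refine Finset.sum_congr rfl fun h' _ => ?_
      have : h ∈ Subgroup.zpowers h' ↔ y ∈ Subgroup.zpowers h' := by
        rw [← Subgroup.zpowers_le, ← Subgroup.zpowers_le, e]
      simp only [this]
    have hcntcongr : ∀ {y h : Γ}, Subgroup.zpowers h = Subgroup.zpowers y → cnt h = cnt y := by
      intro y h e
      simp only [hcnt, e]
    refine ⟨fun h => if orderOf h = k then (1 - S h) / cnt h else b h, ?_, ?_⟩
    · intro h hh
      show (if orderOf h = k then (1 - S h) / cnt h else b h) = 0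
      rw [if_neg hh.ne]
      exact hb0 h (by omega)
    · intro y hy
      rcases hy.eq_or_lt with hy | hy
      · have key : ∀ h : Γ, (if y ∈ Subgroup.zpowers h then
              (if orderOf h = k then (1 - S h) / cnt h else b h) else 0)
            = (if y ∈ Subgroup.zpowers h then b h else 0)
              + (if Subgroup.zpowers h = Subgroup.zpowers y then (1 - S y) / cnt y else 0) := by
          intro h
          by_cases h1 : y ∈ Subgroup.zpowers h
          · by_cases h2 : orderOf h = k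
            · have h3 : Subgroup.zpowers h = Subgroup.zpowers y := by
                symm
                apply Subgroup.eq_of_le_of_card_ge (Subgroup.zpowers_le.2 h1)
                rw [Nat.card_zpowers, Nat.card_zpowers, h2, hy]
              rw [if_pos h1, if_pos h2, if_pos h1, if_pos h3, hb0 h (by omega), zero_add,
                hScongr h3, hcntcongr h3]
            · have h3 : Subgroup.zpowers h ≠ Subgroup.zpowers y := fun e => h2 (by rw [hzp e, hy])
              rw [if_pos h1, if_neg h2, if_pos h1, if_neg h3, add_zero]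
          · have h3 : Subgroup.zpowers h ≠ Subgroup.zpowers y :=
              fun e => h1 (e ▸ Subgroup.mem_zpowers y)
            rw [if_neg h1, if_neg h1, if_neg h3, add_zero]
        have hcnt0 : cnt y ≠ 0 := by
          simp only [hcnt]
          have : 0 < (Finset.univ.filter
              (fun h : Γ => Subgroup.zpowers h = Subgroup.zpowers y)).card :=
            Finset.card_pos.2 ⟨y, by simp⟩
          exact_mod_cast this.ne'
        simp_rw [key]
        rw [Finset.sum_add_distrib]
        have e2 : (∑ x : Γ, if Subgroup.zpowers x = Subgroup.zpowers y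
            then (1 - S y) / cnt y else 0) = cnt y * ((1 - S y) / cnt y) := by
          rw [← Finset.sum_filter, Finset.sum_const, nsmul_eq_mul]
        rw [e2]
        show S y + cnt y * ((1 - S y) / cnt y) = 1
        field_simp
        ring
      · refine Eq.trans ?_ (hb1 y hy)
        refine Finset.sum_congr rfl fun h _ => ?_
        show (if y ∈ Subgroup.zpowers h then
              (if orderOf h = k then (1 - S h) / cnt h else b h) else 0) = _
        by_cases h1 : y ∈ Subgroup.zpowers h
        · have h2 : orderOf h ≠ k := by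
            have := Nat.le_of_dvd (orderOf_pos h) (orderOf_dvd_of_mem_zpowers h1)
            omega
          rw [if_pos h1, if_pos h1, if_neg h2]
        · rw [if_neg h1, if_neg h1]
  have hN : P (Fintype.card Γ + 1) := by
    refine ⟨fun _ => 0, fun _ _ => rfl, fun y hy => ?_⟩
    have := orderOf_le_card_univ (x := y)
    omega
  have hall : ∀ j, P (Fintype.card Γ + 1 - j) := by
    intro j
    induction j with
    | zero => exact hN
    | succ j ih =>
      by_cases h0 : Fintype.card Γ + 1 - j = 0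
      · have : Fintype.card Γ + 1 - (j + 1) = Fintype.card Γ + 1 - j := by omega
        rw [this]; exact ih
      · apply step
        have : Fintype.card Γ + 1 - (j + 1) + 1 = Fintype.card Γ + 1 - j := by omega
        rw [this]; exact ih
  obtain ⟨b, -, hb⟩ : P 0 := by simpa using hall (Fintype.card Γ + 1)
  refine ⟨b, fun y => ?_⟩
  convert hb y (Nat.zero_le _)

theorem ArtinFin_exists_den {ι : Type} [Fintype ι] (b : ι → ℚ) :
    ∃ (D : ℕ) (z : ι → ℤ), D ≠ 0 ∧ ∀ i, (z i : ℚ) = D * b i := by
  classical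
  refine ⟨∏ i, (b i).den, fun i => (∏ j ∈ Finset.univ.erase i, ((b j).den : ℤ)) * (b i).num,
    Finset.prod_ne_zero_iff.2 fun i _ => (b i).den_nz, fun i => ?_⟩
  rw [← Finset.mul_prod_erase Finset.univ (fun i => (b i).den) (Finset.mem_univ i)]
  push_cast
  rw [← Rat.mul_den_eq_num]
  ring

theorem exists_artin_fin (Γ : Type) [Group Γ] [Fintype Γ] :
    ∃ (c : Γ → ℤ) (n : ℕ), n ≠ 0 ∧ ∀ g : Γ,
      ∑ h : Γ, c h * (Nat.card (MulAction.fixedBy (Γ ⧸ Subgroup.zpowers h) g) : ℤ) = n := by
  classical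
  obtain ⟨b, hb⟩ := ArtinFin_exists_b Γ
  obtain ⟨D, z, hD, hz⟩ := ArtinFin_exists_den b
  refine ⟨fun h => z h * (Nat.card (Subgroup.zpowers h) : ℤ), D * Fintype.card Γ,
    mul_ne_zero hD Fintype.card_ne_zero, fun g => ?_⟩
  have hq : (∑ h : Γ, (z h * (Nat.card (Subgroup.zpowers h) : ℤ))
      * (Nat.card (MulAction.fixedBy (Γ ⧸ Subgroup.zpowers h) g) : ℤ) : ℚ)
      = ((D * Fintype.card Γ : ℕ) : ℚ) := by
    have h1 : ∀ h : Γ, ((z h * (Nat.card (Subgroup.zpowers h) : ℤ))
        * (Nat.card (MulAction.fixedBy (Γ ⧸ Subgroup.zpowers h) g) : ℤ) : ℚ)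
        = D * ∑ x : Γ, (if x⁻¹ * g * x ∈ Subgroup.zpowers h then b h else 0) := by
      intro h
      have h2 := ArtinFin_card_mul Γ (Subgroup.zpowers h) g
      have h3 : Nat.card {x : Γ | x⁻¹ * g * x ∈ Subgroup.zpowers h}
          = (Finset.univ.filter (fun x : Γ => x⁻¹ * g * x ∈ Subgroup.zpowers h)).card := by
        rw [Nat.card_eq_fintype_card, Fintype.card_subtype]
        rfl
      rw [← Finset.sum_filter, Finset.sum_const, nsmul_eq_mul, ← h3, ← h2, hz]
      push_cast
      ring
    rw [Finset.sum_congr rfl fun h _ => h1 h, ← Finset.mul_sum, Finset.sum_comm]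
    rw [Finset.sum_congr rfl fun x _ => hb (x⁻¹ * g * x)]
    simp
  exact_mod_cast hq

end Fermat.Agent.S56.EA

end
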