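/-
S56 / EA / RatIso : rational representations of a finite group with equal characters are isomorphic.
(Mathlib only.)

PROOF (strong induction on `finrank V`).  `finrank V = tr ρ 1 = tr σ 1 = finrank W`.  If `V = 0`: trivial.
Otherwise, by `Representation.card_inv_mul_sum_char_mul_char_eq_finrank` (valid over `ℚ`)
  `finrank (IntertwiningMap ρ σ) = |Γ|⁻¹ ∑ χ_σ(g) χ_ρ(g⁻¹) = |Γ|⁻¹ ∑ χ_ρ(g) χ_ρ(g⁻¹) = finrank (IntertwiningMap ρ ρ) ≥ 1`
(`id ≠ 0`).  Take `f ≠ 0` equivariant.  Maschke (`MonoidAlgebra.Submodule.exists_isCompl`, or average a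
linear projection by hand): `V = K ⊕ K'`, `K = ker f`, `W = f(V) ⊕ C`, all `Γ`-stable; `f : K' ≃ f(V)`.
Traces are additive on `Γ`-stable direct sums, so `K` and `C` have equal characters and
`finrank K < finrank V`; by induction `K ≃ C`; glue.
-/
import Mathlib

set_option autoImplicit false

noncomputable section

namespace Fermat.Agent.S56.EA

open Representation

theorem RatIso_trace_add {V : Type} [AddCommGroup V] [Module ℚ V] [FiniteDimensional ℚ V]
    (K K' : Submodule ℚ V) (h : IsCompl K K') (f : V →ₗ[ℚ] V) (hK : ∀ v ∈ K, f v ∈ K)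
    (hK' : ∀ v ∈ K', f v ∈ K') :
    LinearMap.trace ℚ V f =
      LinearMap.trace ℚ K (f.restrict hK) + LinearMap.trace ℚ K' (f.restrict hK') := by
  have key : f = (Submodule.prodEquivOfIsCompl K K' h).conj
      ((f.restrict hK).prodMap (f.restrict hK')) := by
    apply LinearMap.ext
    intro v
    obtain ⟨⟨k, k'⟩, rfl⟩ := (Submodule.prodEquivOfIsCompl K K' h).surjective v
    simp [LinearEquiv.conj_apply]
  conv_lhs => rw [key]
  rw [LinearMap.trace_conj', LinearMap.trace_prodMap']

theorem RatIso_exists_compl {Γ : Type} [Group Γ] [Finite Γ] {V : Type} [AddCommGroup V]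
    [Module ℚ V] (ρ : Representation ℚ Γ V) (K : Submodule ℚ V)
    (hK : ∀ g, ∀ v ∈ K, ρ g v ∈ K) :
    ∃ K' : Submodule ℚ V, IsCompl K K' ∧ ∀ g, ∀ v ∈ K', ρ g v ∈ K' := by
  have : NeZero (Nat.card Γ : ℚ) := ⟨by exact_mod_cast Nat.card_pos.ne'⟩
  obtain ⟨K', hc⟩ := exists_isCompl (⟨K, fun g v hv => hK g v hv⟩ : Subrepresentation ρ)
  refine ⟨K'.toSubmodule, ?_, fun g v hv => K'.apply_mem_toSubmodule g hv⟩
  constructor
  · rw [disjoint_iff]
    have := hc.inf_eq_bot
    have h2 := congrArg Subrepresentation.toSubmodule this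
    rw [Subrepresentation.toSubmodule_inf] at h2
    exact h2
  · rw [codisjoint_iff]
    have := hc.sup_eq_top
    have h2 := congrArg Subrepresentation.toSubmodule this
    rw [Subrepresentation.toSubmodule_sup] at h2
    exact h2

theorem RatIso_exists_hom {Γ : Type} [Group Γ] [Finite Γ] {V W : Type} [AddCommGroup V]
    [Module ℚ V] [FiniteDimensional ℚ V] [AddCommGroup W] [Module ℚ W] [FiniteDimensional ℚ W]
    (ρ : Representation ℚ Γ V) (σ : Representation ℚ Γ W)
    (h : ∀ g, LinearMap.trace ℚ V (ρ g) = LinearMap.trace ℚ W (σ g)) (hV : Nontrivial V) :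
    ∃ f : V →ₗ[ℚ] W, f ≠ 0 ∧ ∀ g v, f (ρ g v) = σ g (f v) := by
  have : Fintype Γ := Fintype.ofFinite Γ
  have : Invertible (Nat.card Γ : ℚ) := invertibleOfNonzero (by exact_mod_cast Nat.card_pos.ne')
  have h1 := card_inv_mul_sum_char_mul_char_eq_finrank ρ σ
  have h2 := card_inv_mul_sum_char_mul_char_eq_finrank ρ ρ
  have h3 : (Module.finrank ℚ (IntertwiningMap ρ σ) : ℚ) = Module.finrank ℚ (IntertwiningMap ρ ρ) := by
    rw [← h1, ← h2]
    congr 1
    apply Finset.sum_congr rfl
    intro g _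
    simp only [character]
    rw [h g]
  have h4 : Module.finrank ℚ (IntertwiningMap ρ σ) = Module.finrank ℚ (IntertwiningMap ρ ρ) := by
    exact_mod_cast h3
  have hfin : Module.Finite ℚ (IntertwiningMap ρ ρ) :=
    Module.Finite.equiv (invariantsEquivIntertwiningMap ρ ρ)
  have hnt : Nontrivial (IntertwiningMap ρ ρ) := by
    refine ⟨⟨IntertwiningMap.id ρ, 0, ?_⟩⟩
    intro h0
    obtain ⟨v, hv⟩ := exists_ne (0 : V)
    apply hv
    have := congrArg (fun f : IntertwiningMap ρ ρ => f v) h0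
    simpa using this
  have h5 : 0 < Module.finrank ℚ (IntertwiningMap ρ ρ) := Module.finrank_pos
  rw [← h4] at h5
  have hnt2 : Nontrivial (IntertwiningMap ρ σ) := Module.nontrivial_of_finrank_pos h5
  obtain ⟨f, hf⟩ := exists_ne (0 : IntertwiningMap ρ σ)
  refine ⟨f.toLinearMap, ?_, fun g v => IntertwiningMap.isIntertwining ρ σ f g v⟩
  intro h0
  apply hf
  apply IntertwiningMap.ext
  simpa using h0

/-- the restriction of a representation to a stable subspace -/
def RatIso_res {Γ : Type} [Group Γ] {V : Type} [AddCommGroup V] [Module ℚ V]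
    (ρ : Representation ℚ Γ V) (K : Submodule ℚ V) (hK : ∀ g, ∀ v ∈ K, ρ g v ∈ K) :
    Representation ℚ Γ K :=
  (⟨K, fun g v hv => hK g v hv⟩ : Subrepresentation ρ).toRepresentation

theorem RatIso_res_apply {Γ : Type} [Group Γ] {V : Type} [AddCommGroup V] [Module ℚ V]
    (ρ : Representation ℚ Γ V) (K : Submodule ℚ V) (hK : ∀ g, ∀ v ∈ K, ρ g v ∈ K) (g : Γ) :
    RatIso_res ρ K hK g = (ρ g).restrict (hK g) := rfl

theorem RatIso_glue {Γ : Type} [Group Γ] {V W : Type} [AddCommGroup V]
    [Module ℚ V] [AddCommGroup W] [Module ℚ W]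
    (ρ : Representation ℚ Γ V) (σ : Representation ℚ Γ W)
    (K K' : Submodule ℚ V) (hc : IsCompl K K') (C I : Submodule ℚ W) (hc' : IsCompl C I)
    (e1 : K ≃ₗ[ℚ] C) (e2 : K' ≃ₗ[ℚ] I)
    (hK : ∀ g, ∀ v ∈ K, ρ g v ∈ K) (hK' : ∀ g, ∀ v ∈ K', ρ g v ∈ K')
    (h1 : ∀ g (v : K), ((e1 ⟨ρ g v, hK g v v.2⟩ : C) : W) = σ g (e1 v : W))
    (h2 : ∀ g (v : K'), ((e2 ⟨ρ g v, hK' g v v.2⟩ : I) : W) = σ g (e2 v : W)) :
    ∃ e : V ≃ₗ[ℚ] W, ∀ g v, e (ρ g v) = σ g (e v) := by
  refine ⟨(Submodule.prodEquivOfIsCompl K K' hc).symm ≪≫ₗ (e1.prodCongr e2) ≪≫ₗ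
    (Submodule.prodEquivOfIsCompl C I hc'), ?_⟩
  intro g v
  obtain ⟨⟨k, k'⟩, rfl⟩ := (Submodule.prodEquivOfIsCompl K K' hc).surjective v
  have hv : ρ g ((Submodule.prodEquivOfIsCompl K K' hc) (k, k')) =
      (Submodule.prodEquivOfIsCompl K K' hc) (⟨ρ g k, hK g k k.2⟩, ⟨ρ g k', hK' g k' k'.2⟩) := by
    simp
  rw [hv]
  simp only [LinearEquiv.trans_apply, LinearEquiv.symm_apply_apply]
  simp [h1, h2]

theorem RatIso_main (Γ : Type) [Group Γ] [Finite Γ] (n : ℕ) :
    ∀ (V W : Type) [AddCommGroup V] [Module ℚ V] [FiniteDimensional ℚ V] [AddCommGroup W]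
      [Module ℚ W] [FiniteDimensional ℚ W] (ρ : Representation ℚ Γ V)
      (σ : Representation ℚ Γ W), Module.finrank ℚ V = n →
      (∀ g, LinearMap.trace ℚ V (ρ g) = LinearMap.trace ℚ W (σ g)) →
      ∃ e : V ≃ₗ[ℚ] W, ∀ g v, e (ρ g v) = σ g (e v) := by
  induction n using Nat.strong_induction_on with
  | _ n ih =>
    intro V W _ _ _ _ _ _ ρ σ hn h
    have hdim : Module.finrank ℚ V = Module.finrank ℚ W := by
      have := h 1
      simp only [map_one, LinearMap.trace_one] at this
      exact_mod_cast this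
    rcases Nat.eq_zero_or_pos n with rfl | hpos
    · have hV : Subsingleton V := Module.finrank_zero_iff.mp hn
      have hW : Subsingleton W := Module.finrank_zero_iff.mp (hdim ▸ hn)
      exact ⟨LinearEquiv.ofFinrankEq V W hdim, fun g v => Subsingleton.elim _ _⟩
    · have hV : Nontrivial V := Module.nontrivial_of_finrank_pos (R := ℚ) (hn ▸ hpos)
      obtain ⟨f, hf0, hf⟩ := RatIso_exists_hom ρ σ h hV
      have hK : ∀ g, ∀ v ∈ LinearMap.ker f, ρ g v ∈ LinearMap.ker f := by
        intro g v hv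
        rw [LinearMap.mem_ker] at hv ⊢
        rw [hf, hv, map_zero]
      have hI : ∀ g, ∀ w ∈ LinearMap.range f, σ g w ∈ LinearMap.range f := by
        rintro g _ ⟨v, rfl⟩
        exact ⟨ρ g v, hf g v⟩
      obtain ⟨K', hc, hK'⟩ := RatIso_exists_compl ρ _ hK
      obtain ⟨C, hc', hC⟩ := RatIso_exists_compl σ _ hI
      -- `f : K' ≃ range f`
      let e2 : K' ≃ₗ[ℚ] LinearMap.range f := LinearEquiv.ofBijective
        ((f.domRestrict K').codRestrict (LinearMap.range f) (fun v => ⟨v, rfl⟩)) (by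
          constructor
          · rw [← LinearMap.ker_eq_bot, LinearMap.ker_eq_bot']
            intro v hv
            have h0 : f v = 0 := congrArg Subtype.val hv
            have : (v : V) ∈ LinearMap.ker f ⊓ K' := ⟨h0, v.2⟩
            rw [hc.inf_eq_bot] at this
            exact Subtype.ext (by simpa using this)
          · rintro ⟨_, v, rfl⟩
            obtain ⟨⟨k, k'⟩, rfl⟩ := (Submodule.prodEquivOfIsCompl _ K' hc).surjective v
            refine ⟨k', Subtype.ext ?_⟩
            have hk : f k = 0 := k.2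
            change f k' = _
            simp [hk])
      have he2 : ∀ v : K', ((e2 v : LinearMap.range f) : W) = f v := fun v => rfl
      have htr2 : ∀ g, LinearMap.trace ℚ K' ((ρ g).restrict (hK' g)) =
          LinearMap.trace ℚ (LinearMap.range f) ((σ g).restrict (hI g)) := by
        intro g
        have : (σ g).restrict (hI g) = e2.conj ((ρ g).restrict (hK' g)) := by
          apply LinearMap.ext
          intro w
          obtain ⟨v, rfl⟩ := e2.surjective w
          apply Subtype.ext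
          rw [LinearEquiv.conj_apply_apply, LinearEquiv.symm_apply_apply, he2]
          simp only [LinearMap.coe_restrict_apply]
          rw [he2, hf]
        rw [this, LinearMap.trace_conj']
      have htr : ∀ g, LinearMap.trace ℚ (LinearMap.ker f) (RatIso_res ρ _ hK g) =
          LinearMap.trace ℚ C (RatIso_res σ C hC g) := by
        intro g
        rw [RatIso_res_apply, RatIso_res_apply]
        have a1 := RatIso_trace_add _ K' hc (ρ g) (hK g) (hK' g)
        have a2 := RatIso_trace_add _ C hc' (σ g) (hI g) (hC g)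
        rw [h g, a2, htr2 g] at a1
        linarith
      have hlt : Module.finrank ℚ (LinearMap.ker f) < n := by
        rw [← hn]
        apply Submodule.finrank_lt
        intro htop
        exact hf0 (LinearMap.ker_eq_top.mp htop)
      obtain ⟨e1, he1⟩ := ih _ hlt (LinearMap.ker f) C (RatIso_res ρ _ hK) (RatIso_res σ C hC) rfl htr
      refine RatIso_glue ρ σ _ K' hc C _ hc'.symm e1 e2 hK hK' ?_ ?_
      · intro g v
        have := congrArg Subtype.val (he1 g v)
        exact this
      · intro g v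
        rw [he2, he2]
        exact hf g v

theorem exists_equiv_of_trace_eq {Γ : Type} [Group Γ] [Finite Γ] {V W : Type} [AddCommGroup V]
    [Module ℚ V] [FiniteDimensional ℚ V] [AddCommGroup W] [Module ℚ W] [FiniteDimensional ℚ W]
    (ρ : Representation ℚ Γ V) (σ : Representation ℚ Γ W)
    (h : ∀ g, LinearMap.trace ℚ V (ρ g) = LinearMap.trace ℚ W (σ g)) :
    ∃ e : V ≃ₗ[ℚ] W, ∀ g v, e (ρ g v) = σ g (e v) :=
  RatIso_main Γ _ V W ρ σ rfl h

end Fermat.Agent.S56.EA

end
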