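/-
S56 / EA / Isogeny : two `ℤ[G]`-lattices (trivial on `N`, `G/N` finite) with equal characters are isogenous.
(Mathlib + RatIso.)

PROOF.  `Γ := G ⧸ N`; `τ_i` factor through `Γ` (`QuotientGroup.lift`).  `V_i := ℚ ⊗[ℤ] Λ_i` with
`γ ↦ (τ̄_i γ).baseChange ℚ`; `LinearMap.trace_baseChange` gives equal traces; `exists_equiv_of_trace_eq` gives an
equivariant `e : V₁ ≃ V₂`.  Every element of `ℚ ⊗ Λ₂` is `d⁻¹ • (1 ⊗ y)`; with a finite basis of `Λ₁` get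
`d ≠ 0` and `j : Λ₁ → Λ₂` with `1 ⊗ j x = d • e (1 ⊗ x)`; the same for `e.symm`: `j'`, `d'`.
`Λ_i → ℚ ⊗ Λ_i` is injective (free modules), hence `j` is equivariant, `j (j' y) = (d d') • y`,
`j' (j x) = (d d') • x` (so `j` is injective).  (Alternatively: choose bases and work with matrices.)
-/
import Fermat.Agent.S56.EA.RatIso

set_option autoImplicit false

noncomputable section

namespace Fermat.Agent.S56.EA

open TensorProduct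

/-- the lattice map `Λ → ℚ ⊗ Λ`. -/
abbrev Isogeny_ι (Λ : Type) [AddCommGroup Λ] : Λ →ₗ[ℤ] ℚ ⊗[ℤ] Λ := TensorProduct.mk ℤ ℚ Λ 1

theorem Isogeny_loc (Λ : Type) [AddCommGroup Λ] :
    IsLocalizedModule (nonZeroDivisors ℤ) (Isogeny_ι Λ) :=
  IsLocalization.tensorProduct_isLocalizedModule (nonZeroDivisors ℤ) ℚ

theorem Isogeny_ι_injective (Λ : Type) [AddCommGroup Λ] [Module.Free ℤ Λ] :
    Function.Injective (Isogeny_ι Λ) := by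
  intro x y h
  have := Isogeny_loc Λ
  obtain ⟨c, hc⟩ := (IsLocalizedModule.eq_iff_exists (nonZeroDivisors ℤ) (Isogeny_ι Λ)).1 h
  have hc0 : (c : ℤ) ≠ 0 := nonZeroDivisors.coe_ne_zero c
  exact smul_right_injective Λ hc0 hc

theorem Isogeny_ι_surj (Λ : Type) [AddCommGroup Λ] (v : ℚ ⊗[ℤ] Λ) :
    ∃ (d : ℤ) (y : Λ), d ≠ 0 ∧ d • v = Isogeny_ι Λ y := by
  have := Isogeny_loc Λ
  obtain ⟨⟨y, c⟩, hc⟩ := IsLocalizedModule.surj (nonZeroDivisors ℤ) (Isogeny_ι Λ) v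
  exact ⟨c, y, nonZeroDivisors.coe_ne_zero c, hc⟩

/-- common denominator for a finite family. -/
theorem Isogeny_common_denom (Λ : Type) [AddCommGroup Λ] {κ : Type} [Fintype κ]
    (v : κ → ℚ ⊗[ℤ] Λ) : ∃ (d : ℤ) (y : κ → Λ), d ≠ 0 ∧ ∀ k, d • v k = Isogeny_ι Λ (y k) := by
  classical
  choose d y hd hy using fun k => Isogeny_ι_surj Λ (v k)
  have hdvd : ∀ k, ∃ c : ℤ, ∏ l, d l = c * d k := fun k => by
    obtain ⟨c, hc⟩ := Finset.dvd_prod_of_mem d (Finset.mem_univ k)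
    exact ⟨c, by rw [hc, mul_comm]⟩
  choose c hc using hdvd
  refine ⟨∏ l, d l, fun k => c k • y k, Finset.prod_ne_zero_iff.2 (fun l _ => hd l), fun k => ?_⟩
  rw [hc k, mul_smul, hy k, map_smul]

/-- clearing denominators of a linear map. -/
theorem Isogeny_clear (Λ₁ Λ₂ : Type) [AddCommGroup Λ₁] [AddCommGroup Λ₂] [Module.Free ℤ Λ₁]
    [Module.Finite ℤ Λ₁] (e : (ℚ ⊗[ℤ] Λ₁) →ₗ[ℤ] (ℚ ⊗[ℤ] Λ₂)) :
    ∃ (d : ℤ) (j : Λ₁ →ₗ[ℤ] Λ₂), d ≠ 0 ∧ ∀ x, Isogeny_ι Λ₂ (j x) = d • e (Isogeny_ι Λ₁ x) := by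
  let b := Module.Free.chooseBasis ℤ Λ₁
  obtain ⟨d, y, hd, hy⟩ := Isogeny_common_denom Λ₂ (fun k => e (Isogeny_ι Λ₁ (b k)))
  refine ⟨d, b.constr ℤ y, hd, fun x => ?_⟩
  have : (Isogeny_ι Λ₂) ∘ₗ (b.constr ℤ y) = d • (e ∘ₗ Isogeny_ι Λ₁) := by
    apply b.ext
    intro k
    rw [LinearMap.comp_apply, Module.Basis.constr_basis, LinearMap.smul_apply, LinearMap.comp_apply,
      hy k]
  exact LinearMap.congr_fun this x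

theorem exists_isogeny {G : Type} [Group G] (N : Subgroup G) [N.Normal] [Finite (G ⧸ N)]
    {Λ₁ Λ₂ : Type} [AddCommGroup Λ₁] [AddCommGroup Λ₂] [Module.Free ℤ Λ₁] [Module.Finite ℤ Λ₁]
    [Module.Free ℤ Λ₂] [Module.Finite ℤ Λ₂] (τ₁ : Representation ℤ G Λ₁)
    (τ₂ : Representation ℤ G Λ₂) (hτ₁ : ∀ n ∈ N, τ₁ n = 1) (hτ₂ : ∀ n ∈ N, τ₂ n = 1)
    (htr : ∀ g, LinearMap.trace ℤ Λ₁ (τ₁ g) = LinearMap.trace ℤ Λ₂ (τ₂ g)) :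
    ∃ (j : Λ₁ →ₗ[ℤ] Λ₂) (n : ℕ), n ≠ 0 ∧ (∀ g x, j (τ₁ g x) = τ₂ g (j x)) ∧
      Function.Injective j ∧ ∀ y : Λ₂, (n : ℤ) • y ∈ LinearMap.range j := by
  let ρ₁ : Representation ℚ (G ⧸ N) (ℚ ⊗[ℤ] Λ₁) :=
    ((Module.End.baseChangeHom ℤ ℚ Λ₁ : Module.End ℤ Λ₁ →* Module.End ℚ (ℚ ⊗[ℤ] Λ₁))).comp
      (QuotientGroup.lift N τ₁ hτ₁)
  let ρ₂ : Representation ℚ (G ⧸ N) (ℚ ⊗[ℤ] Λ₂) :=
    ((Module.End.baseChangeHom ℤ ℚ Λ₂ : Module.End ℤ Λ₂ →* Module.End ℚ (ℚ ⊗[ℤ] Λ₂))).comp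
      (QuotientGroup.lift N τ₂ hτ₂)
  have hρ₁ : ∀ g : G, ρ₁ (g : G ⧸ N) = (τ₁ g).baseChange ℚ := fun g => rfl
  have hρ₂ : ∀ g : G, ρ₂ (g : G ⧸ N) = (τ₂ g).baseChange ℚ := fun g => rfl
  have htr' : ∀ γ, LinearMap.trace ℚ _ (ρ₁ γ) = LinearMap.trace ℚ _ (ρ₂ γ) := by
    intro γ
    obtain ⟨g, rfl⟩ := QuotientGroup.mk_surjective γ
    rw [hρ₁, hρ₂, LinearMap.trace_baseChange, LinearMap.trace_baseChange, htr]
  obtain ⟨e, he⟩ := exists_equiv_of_trace_eq ρ₁ ρ₂ htr'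
  obtain ⟨d, j, hd, hj⟩ := Isogeny_clear Λ₁ Λ₂ (e.toLinearMap.restrictScalars ℤ)
  obtain ⟨d', j', hd', hj'⟩ := Isogeny_clear Λ₂ Λ₁ (e.symm.toLinearMap.restrictScalars ℤ)
  have hj1 : ∀ x, Isogeny_ι Λ₂ (j x) = d • e (Isogeny_ι Λ₁ x) := hj
  have hj1' : ∀ y, Isogeny_ι Λ₁ (j' y) = d' • e.symm (Isogeny_ι Λ₂ y) := hj'
  have hι₁ : ∀ g x, Isogeny_ι Λ₁ (τ₁ g x) = ρ₁ (g : G ⧸ N) (Isogeny_ι Λ₁ x) := fun g x => by
    rw [hρ₁]; exact (LinearMap.baseChange_tmul _ _ _).symm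
  have hι₂ : ∀ g x, Isogeny_ι Λ₂ (τ₂ g x) = ρ₂ (g : G ⧸ N) (Isogeny_ι Λ₂ x) := fun g x => by
    rw [hρ₂]; exact (LinearMap.baseChange_tmul _ _ _).symm
  have hjj : ∀ y, j (j' y) = (d * d') • y := by
    intro y
    apply Isogeny_ι_injective Λ₂
    rw [hj1, hj1', map_zsmul, LinearEquiv.apply_symm_apply, smul_smul, map_zsmul]
  refine ⟨j, (d * d').natAbs, Int.natAbs_ne_zero.2 (mul_ne_zero hd hd'), ?_, ?_, ?_⟩
  · intro g x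
    apply Isogeny_ι_injective Λ₂
    rw [hj1, hι₁, he, hι₂, hj1, map_zsmul]
  · rw [injective_iff_map_eq_zero]
    intro x hx
    apply Isogeny_ι_injective Λ₁
    have h0 := hj1 x
    rw [hx, map_zero] at h0
    have h1 : e (Isogeny_ι Λ₁ x) = 0 := by
      have h2 : (d : ℚ) • e (Isogeny_ι Λ₁ x) = 0 := by rw [Int.cast_smul_eq_zsmul]; exact h0.symm
      exact (smul_eq_zero.1 h2).resolve_left (Int.cast_ne_zero.2 hd)
    rw [map_zero]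
    exact (LinearEquiv.map_eq_zero_iff e).1 h1
  · intro y
    rcases Int.natAbs_eq (d * d') with h | h
    · rw [← h]; exact ⟨j' y, hjj y⟩
    · refine ⟨j' (-y), ?_⟩
      rw [hjj, smul_neg, ← neg_smul]
      congr 1
      omega

end Fermat.Agent.S56.EA

end
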