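/-
S56 / EA / Lattice : the LATTICE TRICK.

For a `ℤ[G]`-module `Λ` and an `𝔽_p[G]`-module `Y` put `D(Λ) := Hom_ℤ(Λ, Y)` (`homRep`).
If `j : Λ₁ → Λ₂` is an equivariant injection of torsion free f.g. groups with `n Λ₂ ⊆ j Λ₁`, `n ≠ 0`,
then `e (D Λ₁) = e (D Λ₂)` for every additive invariant `e`.

PROOF.  Work with `G`-stable submodules `L ≤ L'` of `Λ₂`.
(S) SANDWICH `p L' ≤ L ≤ L'`: `r : D L' → D L` restriction, `r' : D L → D L'`, `r' f = (x ↦ f (p x))`.
    `ker r' = im r`  [`f` kills `p L'`  ⟹ `f` extends to `L'`: `exists_extend`],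
    `ker r = im r'`  [`h : L' → Y` kills `L`: `f₀ (p x) := h x` on `p L' ≤ L` (torsion free), it kills
    `p L`, so it extends to `L` by `exists_extend`].   Then `AddInv.e_eq_of_exact_pair`.
(P) `p ^ s L' ≤ L ≤ L'`: induction on `s` with `L'' := L ⊔ p ^ s L'` (for `s + 1`).
(C) `d L' ≤ L ≤ L'`, `p ∤ d`: the restriction `D L' → D L` is bijective (inverse `f ↦ d⁻¹ f (d x)`).
(F) `n = p ^ s * d`: `L₀ := L ⊔ p ^ s Λ₂`; (C) for `L ≤ L₀`, (P) for `L₀ ≤ ⊤`.
-/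
import Fermat.Agent.S56.EA.AddInv

set_option autoImplicit false

noncomputable section

namespace Fermat.Agent.S56.EA

open Fermat.Agent.S55 Module

variable {p : ℕ} [Fact p.Prime] {G : Type} [Group G] {N : Subgroup G}

section defs
variable {Λ Y : Type} [AddCommGroup Λ] [AddCommGroup Y] [Module (ZMod p) Y]

/-- `D(Λ) = Hom_ℤ(Λ, Y)` with `(g f)(x) = g f(g⁻¹ x)`. -/
def homRep (τ : Representation ℤ G Λ) (ρ : Representation (ZMod p) G Y) :
    Representation (ZMod p) G (Λ →ₗ[ℤ] Y) where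
  toFun g :=
    { toFun := fun f => ((ρ g).restrictScalars ℤ) ∘ₗ f ∘ₗ τ g⁻¹
      map_add' := fun f f' => by ext x; simp
      map_smul' := fun c f => by ext x; simp }
  map_one' := by ext f x; simp
  map_mul' g h := by ext f x; simp

@[simp] lemma homRep_apply (τ : Representation ℤ G Λ) (ρ : Representation (ZMod p) G Y) (g : G)
    (f : Λ →ₗ[ℤ] Y) (x : Λ) : homRep τ ρ g f x = ρ g (f (τ g⁻¹ x)) := rfl

lemma homRep_trivial_on {τ : Representation ℤ G Λ} {ρ : Representation (ZMod p) G Y}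
    (hτ : ∀ n ∈ N, τ n = 1) (hρ : ∀ n ∈ N, ρ n = 1) : ∀ n ∈ N, homRep τ ρ n = 1 := by
  intro n hn
  ext f x
  simp [hτ n⁻¹ (N.inv_mem hn), hρ n hn]

/-- `Hom_ℤ(Λ, Y)` is finite dimensional.  (Evaluate on a finite generating set: injective linear
map into `s → Y`.) -/
instance finiteDimensional_hom [Module.Finite ℤ Λ] [FiniteDimensional (ZMod p) Y] :
    FiniteDimensional (ZMod p) (Λ →ₗ[ℤ] Y) := by
  obtain ⟨s, hs⟩ := (Module.finite_def.1 (inferInstance : Module.Finite ℤ Λ))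
  let ev : (Λ →ₗ[ℤ] Y) →ₗ[ZMod p] (s → Y) :=
    { toFun := fun f x => f x
      map_add' := fun _ _ => rfl
      map_smul' := fun _ _ => rfl }
  have hev : Function.Injective ev := by
    intro f f' hff
    apply LinearMap.ext_on hs
    intro x hx
    exact congrFun hff ⟨x, hx⟩
  exact FiniteDimensional.of_injective ev hev

end defs

theorem Lattice_extend_zmod {U V Y : Type} [AddCommGroup U] [AddCommGroup V] [AddCommGroup Y]
    [Module (ZMod p) U] [Module (ZMod p) V] (ι : U →+ V) (hι : Function.Injective ι) (f : U →+ Y) :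
    ∃ F : V →+ Y, ∀ x, F (ι x) = f x := by
  obtain ⟨g, hg⟩ := (AddMonoidHom.toZModLinearMap p ι).exists_leftInverse_of_injective
    (LinearMap.ker_eq_bot.2 hι)
  exact ⟨f.comp g.toAddMonoidHom, fun x => congrArg f (LinearMap.congr_fun hg x)⟩

theorem Lattice_extend_tors {U V Y : Type} [AddCommGroup U] [AddCommGroup V] [AddCommGroup Y]
    (hU : ∀ x : U, p • x = 0) (hV : ∀ x : V, p • x = 0) (ι : U →+ V)
    (hι : Function.Injective ι) (f : U →+ Y) : ∃ F : V →+ Y, ∀ x, F (ι x) = f x := by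
  let _ := AddCommGroup.zmodModule hU
  let _ := AddCommGroup.zmodModule hV
  exact Lattice_extend_zmod (p := p) ι hι f

/-- EXTENSION LEMMA.  `B ≤ A` abelian groups with `p A ≤ B`; a homomorphism `f : B → Y` into an
`𝔽_p`-vector space which kills `p A` extends to `A`.
Proof: `A ⧸ pA` is an `𝔽_p`-vector space (`AddCommGroup.zmodModule`), `f` factors through the image of
`B`, a subspace; `LinearMap.exists_extend`. -/
theorem exists_extend {A Y : Type} [AddCommGroup A] [AddCommGroup Y] [Module (ZMod p) Y]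
    (B : Submodule ℤ A) (hB : ∀ x : A, (p : ℤ) • x ∈ B) (f : B →ₗ[ℤ] Y)
    (hf : ∀ x : A, f ⟨(p : ℤ) • x, hB x⟩ = 0) : ∃ F : A →ₗ[ℤ] Y, ∀ b : B, F b = f b := by
  let P : Submodule ℤ A := LinearMap.range (LinearMap.lsmul ℤ A (p : ℤ))
  have hP : ∀ x : A, p • x ∈ P := fun x => ⟨x, by simp⟩
  let P' : Submodule ℤ B := P.comap B.subtype
  have hA : ∀ x : A ⧸ P, p • x = 0 := by
    intro x
    obtain ⟨a, rfl⟩ := P.mkQ_surjective x
    rw [← map_nsmul, Submodule.mkQ_apply, Submodule.Quotient.mk_eq_zero]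
    exact hP a
  have hB' : ∀ x : B ⧸ P', p • x = 0 := by
    intro x
    obtain ⟨b, rfl⟩ := P'.mkQ_surjective x
    rw [← map_nsmul, Submodule.mkQ_apply, Submodule.Quotient.mk_eq_zero]
    exact hP (b : A)
  let ι₀ : (B ⧸ P') →ₗ[ℤ] (A ⧸ P) := P'.mapQ P B.subtype le_rfl
  have hι : Function.Injective ι₀.toAddMonoidHom := by
    rw [injective_iff_map_eq_zero]
    intro x hx
    obtain ⟨b, rfl⟩ := P'.mkQ_surjective x
    have h1 : P.mkQ (b : A) = 0 := hx
    rw [Submodule.mkQ_apply, Submodule.Quotient.mk_eq_zero] at h1 ⊢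
    exact h1
  let fbar : (B ⧸ P') →ₗ[ℤ] Y := P'.liftQ f (by
    intro b hb
    obtain ⟨x, hx⟩ := hb
    rw [LinearMap.mem_ker]
    have h1 : b = ⟨(p : ℤ) • x, hB x⟩ := Subtype.ext hx.symm
    rw [h1]
    exact hf x)
  obtain ⟨F, hF⟩ := Lattice_extend_tors (p := p) hB' hA ι₀.toAddMonoidHom hι fbar.toAddMonoidHom
  refine ⟨(F.comp P.mkQ.toAddMonoidHom).toIntLinearMap, fun b => ?_⟩
  have h1 : F (P.mkQ (b : A)) = fbar (P'.mkQ b) := hF (P'.mkQ b)
  exact h1.trans (Submodule.liftQ_apply _ _ _)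

/-- functoriality in `Λ` for isomorphisms. -/
theorem e_homRep_congr (a : AddInv p G N) {Λ₁ Λ₂ Y : Type} [AddCommGroup Λ₁] [AddCommGroup Λ₂]
    [Module.Finite ℤ Λ₁] [AddCommGroup Y] [Module (ZMod p) Y] [FiniteDimensional (ZMod p) Y]
    {τ₁ : Representation ℤ G Λ₁} {τ₂ : Representation ℤ G Λ₂} (hτ₁ : ∀ n ∈ N, τ₁ n = 1)
    {ρ : Representation (ZMod p) G Y} (hρ : ∀ n ∈ N, ρ n = 1)
    (j : Λ₁ ≃ₗ[ℤ] Λ₂) (hj : ∀ g x, j (τ₁ g x) = τ₂ g (j x)) :
    a.e (homRep τ₁ ρ) = a.e (homRep τ₂ ρ) := by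
  let φ : (Λ₁ →ₗ[ℤ] Y) ≃ₗ[ZMod p] (Λ₂ →ₗ[ℤ] Y) :=
    { toFun := fun f => f ∘ₗ (j.symm : Λ₂ →ₗ[ℤ] Λ₁)
      invFun := fun f => f ∘ₗ (j : Λ₁ →ₗ[ℤ] Λ₂)
      map_add' := fun _ _ => rfl
      map_smul' := fun _ _ => rfl
      left_inv := fun f => by ext x; simp
      right_inv := fun f => by ext x; simp }
  refine a.e_congr (homRep_trivial_on hτ₁ hρ) φ ?_
  intro g f
  ext x
  show ρ g (f (τ₁ g⁻¹ (j.symm x))) = ρ g (f (j.symm (τ₂ g⁻¹ x)))
  congr 2
  apply j.injective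
  rw [hj, j.apply_symm_apply, j.apply_symm_apply]

end Fermat.Agent.S56.EA

end
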