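/-
S56 / EA / LatticeC : (C) index prime to p   (see the header of EA/Lattice.lean for the whole proof)
-/
import Fermat.Agent.S56.EA.Lattice

set_option autoImplicit false

noncomputable section

namespace Fermat.Agent.S56.EA

open Fermat.Agent.S55 Module

variable {p : ℕ} [Fact p.Prime] {G : Type} [Group G] {N : Subgroup G}

section chain
variable (a : AddInv p G N)
variable {Λ Y : Type} [AddCommGroup Λ] [Module.Finite ℤ Λ] [NoZeroSMulDivisors ℤ Λ]
  [AddCommGroup Y] [Module (ZMod p) Y] [FiniteDimensional (ZMod p) Y]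
  (τ : Representation ℤ G Λ) (hτ : ∀ n ∈ N, τ n = 1)
  (ρ : Representation (ZMod p) G Y) (hρ : ∀ n ∈ N, ρ n = 1)

include hτ hρ

/-- (C) index prime to `p`. -/
theorem e_homRep_coprime (d : ℕ) (hd : ¬ p ∣ d) (L L' : Submodule ℤ Λ)
    (hL : ∀ g, L ≤ L.comap (τ g)) (hL' : ∀ g, L' ≤ L'.comap (τ g)) (hle : L ≤ L')
    (hp : ∀ x ∈ L', (d : ℤ) • x ∈ L) :
    a.e (homRep (τ.subrepresentation L hL) ρ) = a.e (homRep (τ.subrepresentation L' hL') ρ) := by
  have hd0 : ((d : ℤ) : ZMod p) ≠ 0 := by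
    rw [Int.cast_natCast]
    exact fun h => hd ((ZMod.natCast_eq_zero_iff d p).1 h)
  have hτL' : ∀ n ∈ N, τ.subrepresentation L' hL' n = 1 := by
    intro n hn
    ext x
    show τ n x.1 = x.1
    rw [hτ n hn]; rfl
  -- restriction
  let r : (L' →ₗ[ℤ] Y) →ₗ[ZMod p] (L →ₗ[ℤ] Y) :=
    { toFun := fun f => f ∘ₗ Submodule.inclusion hle
      map_add' := fun f f' => by ext x; rfl
      map_smul' := fun c f => by ext x; rfl }
  have hr : ∀ (f : L' →ₗ[ℤ] Y) (x : L), r f x = f (Submodule.inclusion hle x) := fun _ _ => rfl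
  -- multiplication by `d`
  let mulD : L' →ₗ[ℤ] L :=
    { toFun := fun x => ⟨(d : ℤ) • x.1, hp x.1 x.2⟩
      map_add' := fun x y => Subtype.ext (by simp [smul_add])
      map_smul' := fun c x => Subtype.ext (smul_comm (d : ℤ) c x.1) }
  have hinj : Function.Injective r := by
    intro f f' hff
    ext x
    have h1 : f (Submodule.inclusion hle (mulD x)) = f' (Submodule.inclusion hle (mulD x)) := by
      rw [← hr, ← hr, hff]
    have h2 : Submodule.inclusion hle (mulD x) = (d : ℤ) • x := Subtype.ext rfl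
    rw [h2, map_smul, map_smul, ← Int.cast_smul_eq_zsmul (ZMod p), ← Int.cast_smul_eq_zsmul (ZMod p)]
      at h1
    exact smul_right_injective Y hd0 h1
  have hsurj : Function.Surjective r := by
    intro f
    refine ⟨((d : ℤ) : ZMod p)⁻¹ • (f ∘ₗ mulD), ?_⟩
    ext x
    have h2 : mulD (Submodule.inclusion hle x) = (d : ℤ) • x := Subtype.ext rfl
    rw [hr, LinearMap.smul_apply, LinearMap.comp_apply, h2, map_smul,
      ← Int.cast_smul_eq_zsmul (ZMod p), smul_smul, inv_mul_cancel₀ hd0, one_smul]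
  refine (a.e_congr (homRep_trivial_on hτL' hρ) (LinearEquiv.ofBijective r ⟨hinj, hsurj⟩) ?_).symm
  intro g f
  ext x
  rfl

end chain

end Fermat.Agent.S56.EA

end
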