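/-
S56 / EA / LatticeS : (S) sandwich   (see the header of EA/Lattice.lean for the whole proof)
-/
import Fermat.Agent.S56.EA.Lattice

set_option autoImplicit false

noncomputable section

namespace Fermat.Agent.S56.EA

open Fermat.Agent.S55 Module

variable {p : ℕ} [Fact p.Prime] {G : Type} [Group G] {N : Subgroup G}

/-- `p` kills `𝔽_p`-vector spaces. -/
theorem LatticeS_p_smul {Y : Type} [AddCommGroup Y] [Module (ZMod p) Y] (y : Y) :
    (p : ℤ) • y = 0 := by
  rw [← Int.cast_smul_eq_zsmul (ZMod p) (p : ℤ) y]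
  simp

/-- abstract form of the extension step. -/
theorem LatticeS_ext {A C Y : Type} [AddCommGroup A] [AddCommGroup C] [AddCommGroup Y]
    [Module (ZMod p) Y] (u : C →ₗ[ℤ] A) (hu : Function.Injective u) (w : A →ₗ[ℤ] C)
    (huw : ∀ x : A, u (w x) = (p : ℤ) • x) (f : C →ₗ[ℤ] Y) (hf : ∀ x : A, f (w x) = 0) :
    ∃ F : A →ₗ[ℤ] Y, ∀ c, F (u c) = f c := by
  have hsymm : ∀ (c : C) (hc : u c ∈ LinearMap.range u),
      (LinearEquiv.ofInjective u hu).symm ⟨u c, hc⟩ = c := by
    intro c hc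
    rw [LinearEquiv.symm_apply_eq]
    exact Subtype.ext rfl
  have hB : ∀ x : A, (p : ℤ) • x ∈ LinearMap.range u := fun x => ⟨w x, huw x⟩
  obtain ⟨F, hF⟩ := exists_extend (p := p) (LinearMap.range u) hB
    (f ∘ₗ ((LinearEquiv.ofInjective u hu).symm : LinearMap.range u →ₗ[ℤ] C)) (by
      intro x
      have e : (⟨(p : ℤ) • x, hB x⟩ : LinearMap.range u) = ⟨u (w x), LinearMap.mem_range_self u _⟩ :=
        Subtype.ext (huw x).symm
      rw [e, LinearMap.comp_apply, LinearEquiv.coe_coe, hsymm, hf])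
  refine ⟨F, fun c => ?_⟩
  have := hF ⟨u c, LinearMap.mem_range_self u c⟩
  rw [LinearMap.comp_apply, LinearEquiv.coe_coe, hsymm] at this
  exact this

/-- precomposition, as an `𝔽_p`-linear map. -/
def LatticeS_pre {A C : Type} (Y : Type) [AddCommGroup A] [AddCommGroup C] [AddCommGroup Y]
    [Module (ZMod p) Y] (u : C →ₗ[ℤ] A) : (A →ₗ[ℤ] Y) →ₗ[ZMod p] (C →ₗ[ℤ] Y) where
  toFun f := f ∘ₗ u
  map_add' _ _ := rfl
  map_smul' _ _ := rfl

@[simp] theorem LatticeS_pre_apply {A C Y : Type} [AddCommGroup A] [AddCommGroup C]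
    [AddCommGroup Y] [Module (ZMod p) Y] (u : C →ₗ[ℤ] A) (f : A →ₗ[ℤ] Y) (c : C) :
    LatticeS_pre (p := p) Y u f c = f (u c) := rfl

section chain
variable (a : AddInv p G N)
variable {Λ Y : Type} [AddCommGroup Λ] [Module.Finite ℤ Λ] [NoZeroSMulDivisors ℤ Λ]
  [AddCommGroup Y] [Module (ZMod p) Y] [FiniteDimensional (ZMod p) Y]
  (τ : Representation ℤ G Λ) (hτ : ∀ n ∈ N, τ n = 1)
  (ρ : Representation (ZMod p) G Y) (hρ : ∀ n ∈ N, ρ n = 1)

include hτ hρ

/-- (S) sandwich. -/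
theorem e_homRep_sandwich (L L' : Submodule ℤ Λ) (hL : ∀ g, L ≤ L.comap (τ g))
    (hL' : ∀ g, L' ≤ L'.comap (τ g)) (hle : L ≤ L') (hp : ∀ x ∈ L', (p : ℤ) • x ∈ L) :
    a.e (homRep (τ.subrepresentation L hL) ρ) = a.e (homRep (τ.subrepresentation L' hL') ρ) := by
  classical
  have hp0 : (p : ℤ) ≠ 0 := by exact_mod_cast (Fact.out : p.Prime).ne_zero
  let incl : L →ₗ[ℤ] L' := Submodule.inclusion hle
  let mulp : L' →ₗ[ℤ] L :=
    LinearMap.codRestrict L ((p : ℤ) • L'.subtype) (fun x => hp _ x.2)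
  have hincl : Function.Injective incl := Submodule.inclusion_injective hle
  have hmulp : Function.Injective mulp := by
    intro x y hxy
    have h1 : (p : ℤ) • (x : Λ) = (p : ℤ) • (y : Λ) := congrArg Subtype.val hxy
    exact Subtype.ext (smul_right_injective Λ hp0 h1)
  have h_im : ∀ x : L', incl (mulp x) = (p : ℤ) • x := fun x => Subtype.ext rfl
  have h_mi : ∀ x : L, mulp (incl x) = (p : ℤ) • x := fun x => Subtype.ext rfl
  have hτL : ∀ n ∈ N, τ.subrepresentation L hL n = 1 := by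
    intro n hn
    ext x
    simp [hτ n hn]
  have hτL' : ∀ n ∈ N, τ.subrepresentation L' hL' n = 1 := by
    intro n hn
    ext x
    simp [hτ n hn]
  refine a.e_eq_of_exact_pair (homRep_trivial_on hτL hρ) (homRep_trivial_on hτL' hρ)
    (LatticeS_pre Y mulp) ?_ (LatticeS_pre Y incl) ?_ ?_ ?_
  · intro g f
    ext x
    simp only [LatticeS_pre_apply, homRep_apply]
    congr 2
    exact Subtype.ext (map_smul (τ g⁻¹) (p : ℤ) (x : Λ))
  · intro g f
    ext x
    simp only [LatticeS_pre_apply, homRep_apply]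
    congr 2
  · -- `ker (restriction) = range (f ↦ f (p x))`
    apply le_antisymm
    · intro h hh
      have hh' : ∀ x : L, h (incl x) = 0 := fun x =>
        congrArg (fun F : L →ₗ[ℤ] Y => F x) (LinearMap.mem_ker.mp hh)
      obtain ⟨F, hF⟩ := LatticeS_ext (p := p) mulp hmulp incl h_mi h hh'
      exact ⟨F, LinearMap.ext hF⟩
    · rintro _ ⟨f, rfl⟩
      rw [LinearMap.mem_ker]
      ext x
      simp only [LatticeS_pre_apply, LinearMap.zero_apply]
      rw [h_mi, map_smul, LatticeS_p_smul]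
  · apply le_antisymm
    · intro f hf
      have hf' : ∀ x : L', f (mulp x) = 0 := fun x =>
        congrArg (fun F : L' →ₗ[ℤ] Y => F x) (LinearMap.mem_ker.mp hf)
      obtain ⟨F, hF⟩ := LatticeS_ext (p := p) incl hincl mulp h_im f hf'
      exact ⟨F, LinearMap.ext hF⟩
    · rintro _ ⟨h, rfl⟩
      rw [LinearMap.mem_ker]
      ext x
      simp only [LatticeS_pre_apply, LinearMap.zero_apply]
      rw [h_im, map_smul, LatticeS_p_smul]

end chain

end Fermat.Agent.S56.EA

end
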