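/-
S56 / EA / LatticeP : (P), (F) and the lattice trick   (see the header of EA/Lattice.lean for the whole proof)
-/
import Fermat.Agent.S56.EA.LatticeS
import Fermat.Agent.S56.EA.LatticeC

set_option autoImplicit false

noncomputable section

namespace Fermat.Agent.S56.EA

open Fermat.Agent.S55 Module

variable {p : ℕ} [Fact p.Prime] {G : Type} [Group G] {N : Subgroup G}

/-- `L ⊔ c L'`. -/
def LatticeP_mid {Λ : Type} [AddCommGroup Λ] (c : ℤ) (L L' : Submodule ℤ Λ) : Submodule ℤ Λ :=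
  L ⊔ L'.map (LinearMap.lsmul ℤ Λ c)

lemma LatticeP_mem_mid {Λ : Type} [AddCommGroup Λ] {c : ℤ} {L L' : Submodule ℤ Λ} {x : Λ} :
    x ∈ LatticeP_mid c L L' ↔ ∃ l ∈ L, ∃ y ∈ L', l + c • y = x := by
  unfold LatticeP_mid
  rw [Submodule.mem_sup]
  constructor
  · rintro ⟨l, hl, _, ⟨y, hy, rfl⟩, rfl⟩
    exact ⟨l, hl, y, hy, rfl⟩
  · rintro ⟨l, hl, y, hy, rfl⟩
    exact ⟨l, hl, _, ⟨y, hy, rfl⟩, rfl⟩

lemma LatticeP_mid_stable {Λ : Type} [AddCommGroup Λ] (τ : Representation ℤ G Λ) (c : ℤ)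
    (L L' : Submodule ℤ Λ) (hL : ∀ g, L ≤ L.comap (τ g)) (hL' : ∀ g, L' ≤ L'.comap (τ g)) :
    ∀ g, LatticeP_mid c L L' ≤ (LatticeP_mid c L L').comap (τ g) := by
  intro g x hx
  obtain ⟨l, hl, y, hy, rfl⟩ := LatticeP_mem_mid.1 hx
  refine LatticeP_mem_mid.2 ⟨τ g l, hL g hl, τ g y, hL' g hy, ?_⟩
  rw [map_add, map_smul]

section chain
variable (a : AddInv p G N)
variable {Λ Y : Type} [AddCommGroup Λ] [Module.Finite ℤ Λ] [NoZeroSMulDivisors ℤ Λ]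
  [AddCommGroup Y] [Module (ZMod p) Y] [FiniteDimensional (ZMod p) Y]
  (τ : Representation ℤ G Λ) (hτ : ∀ n ∈ N, τ n = 1)
  (ρ : Representation (ZMod p) G Y) (hρ : ∀ n ∈ N, ρ n = 1)

include hτ hρ

/-- (P) `p`-power index. -/
theorem e_homRep_ppow (s : ℕ) (L L' : Submodule ℤ Λ) (hL : ∀ g, L ≤ L.comap (τ g))
    (hL' : ∀ g, L' ≤ L'.comap (τ g)) (hle : L ≤ L') (hp : ∀ x ∈ L', ((p : ℤ) ^ s) • x ∈ L) :
    a.e (homRep (τ.subrepresentation L hL) ρ) = a.e (homRep (τ.subrepresentation L' hL') ρ) := by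
  induction s generalizing L with
  | zero =>
    have : L = L' := le_antisymm hle fun x hx => by simpa using hp x hx
    subst this
    rfl
  | succ s ih =>
    have hst := LatticeP_mid_stable τ ((p : ℤ) ^ s) L L' hL hL'
    have h1 : L ≤ LatticeP_mid ((p : ℤ) ^ s) L L' := le_sup_left
    have h2 : LatticeP_mid ((p : ℤ) ^ s) L L' ≤ L' := by
      intro x hx
      obtain ⟨l, hl, y, hy, rfl⟩ := LatticeP_mem_mid.1 hx
      exact L'.add_mem (hle hl) (L'.smul_mem _ hy)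
    rw [e_homRep_sandwich a τ hτ ρ hρ L (LatticeP_mid ((p : ℤ) ^ s) L L') hL hst h1 ?_]
    · refine ih _ hst h2 fun x hx => ?_
      exact LatticeP_mem_mid.2 ⟨0, L.zero_mem, x, hx, by rw [zero_add]⟩
    · intro x hx
      obtain ⟨l, hl, y, hy, rfl⟩ := LatticeP_mem_mid.1 hx
      rw [smul_add, smul_smul, ← pow_succ']
      exact L.add_mem (L.smul_mem _ hl) (hp y hy)

/-- (F) finite index sublattice versus the whole lattice. -/
theorem e_homRep_sub (n : ℕ) (hn : n ≠ 0) (L : Submodule ℤ Λ) (hL : ∀ g, L ≤ L.comap (τ g))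
    (hp : ∀ x : Λ, (n : ℤ) • x ∈ L) :
    a.e (homRep (τ.subrepresentation L hL) ρ) = a.e (homRep τ ρ) := by
  obtain ⟨s, d, hd, rfl⟩ := Nat.exists_eq_pow_mul_and_not_dvd hn p (Fact.out : p.Prime).ne_one
  have htop : ∀ g, (⊤ : Submodule ℤ Λ) ≤ (⊤ : Submodule ℤ Λ).comap (τ g) := fun g _ _ => trivial
  have hst := LatticeP_mid_stable τ ((p : ℤ) ^ s) L ⊤ hL htop
  have h1 : L ≤ LatticeP_mid ((p : ℤ) ^ s) L ⊤ := le_sup_left
  rw [e_homRep_coprime a τ hτ ρ hρ d hd L (LatticeP_mid ((p : ℤ) ^ s) L ⊤) hL hst h1 ?_,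
    e_homRep_ppow a τ hτ ρ hρ s (LatticeP_mid ((p : ℤ) ^ s) L ⊤) ⊤ hst htop le_top ?_]
  · refine e_homRep_congr a ?_ hρ Submodule.topEquiv (fun g x => rfl)
    intro n hn
    ext x
    simp [Representation.subrepresentation, hτ n hn]
  · intro x hx
    exact LatticeP_mem_mid.2 ⟨0, L.zero_mem, x, hx, by rw [zero_add]⟩
  · intro x hx
    obtain ⟨l, hl, y, -, rfl⟩ := LatticeP_mem_mid.1 hx
    rw [smul_add, smul_smul]
    refine L.add_mem (L.smul_mem _ hl) ?_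
    have := hp y
    push_cast at this
    rwa [mul_comm] at this

end chain

/-- THE LATTICE TRICK (isogeny invariance). -/
theorem e_homRep_of_isogeny (a : AddInv p G N) {Λ₁ Λ₂ Y : Type} [AddCommGroup Λ₁]
    [AddCommGroup Λ₂] [Module.Finite ℤ Λ₁] [Module.Finite ℤ Λ₂] [NoZeroSMulDivisors ℤ Λ₂]
    [AddCommGroup Y] [Module (ZMod p) Y] [FiniteDimensional (ZMod p) Y]
    {τ₁ : Representation ℤ G Λ₁} {τ₂ : Representation ℤ G Λ₂} (hτ₁ : ∀ n ∈ N, τ₁ n = 1)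
    (hτ₂ : ∀ n ∈ N, τ₂ n = 1) {ρ : Representation (ZMod p) G Y} (hρ : ∀ n ∈ N, ρ n = 1)
    (j : Λ₁ →ₗ[ℤ] Λ₂) (hj : ∀ g x, j (τ₁ g x) = τ₂ g (j x)) (hinj : Function.Injective j)
    (n : ℕ) (hn : n ≠ 0) (hsurj : ∀ y : Λ₂, (n : ℤ) • y ∈ LinearMap.range j) :
    a.e (homRep τ₁ ρ) = a.e (homRep τ₂ ρ) := by
  have hL : ∀ g, LinearMap.range j ≤ (LinearMap.range j).comap (τ₂ g) := by
    rintro g _ ⟨x, rfl⟩
    exact ⟨τ₁ g x, hj g x⟩
  rw [← e_homRep_sub a τ₂ hτ₂ ρ hρ n hn (LinearMap.range j) hL hsurj]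
  exact e_homRep_congr a hτ₁ hρ (LinearEquiv.ofInjective j hinj) (fun g x => Subtype.ext (hj g x))

end Fermat.Agent.S56.EA

end
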