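/-
S56 / EA / LT : the lattice trick in its final form: lattices with equal characters.
-/
import Fermat.Agent.S56.EA.LatticeP
import Fermat.Agent.S56.EA.Isogeny

set_option autoImplicit false

noncomputable section

namespace Fermat.Agent.S56.EA

open Fermat.Agent.S55 Module

variable {p : ℕ} [Fact p.Prime] {G : Type} [Group G] {N : Subgroup G}

/-- (LT) `ℤ[G]`-lattices with the same character have the same `e (Hom_ℤ(Λ, Y))`. -/
theorem e_homRep_of_trace_eq (a : AddInv p G N) [N.Normal] [Finite (G ⧸ N)]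
    {Λ₁ Λ₂ Y : Type} [AddCommGroup Λ₁] [AddCommGroup Λ₂] [Module.Free ℤ Λ₁] [Module.Finite ℤ Λ₁]
    [Module.Free ℤ Λ₂] [Module.Finite ℤ Λ₂]
    [AddCommGroup Y] [Module (ZMod p) Y] [FiniteDimensional (ZMod p) Y]
    {τ₁ : Representation ℤ G Λ₁} {τ₂ : Representation ℤ G Λ₂} (hτ₁ : ∀ n ∈ N, τ₁ n = 1)
    (hτ₂ : ∀ n ∈ N, τ₂ n = 1) {ρ : Representation (ZMod p) G Y} (hρ : ∀ n ∈ N, ρ n = 1)
    (htr : ∀ g, LinearMap.trace ℤ Λ₁ (τ₁ g) = LinearMap.trace ℤ Λ₂ (τ₂ g)) :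
    a.e (homRep τ₁ ρ) = a.e (homRep τ₂ ρ) := by
  obtain ⟨j, n, hn, hj, hinj, hsurj⟩ := exists_isogeny N τ₁ τ₂ hτ₁ hτ₂ htr
  haveI : NoZeroSMulDivisors ℤ Λ₂ := ⟨fun {_ _} h => smul_eq_zero.mp h⟩
  exact e_homRep_of_isogeny a hτ₁ hτ₂ hρ j hj hinj n hn hsurj

end Fermat.Agent.S56.EA

end
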