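/-
S56 / EA / Perm : permutation lattices `ℤ[Ω] = (Ω → ℤ)`.
 * trace of `g` = number of fixed points,
 * `Hom_ℤ(ℤ[Ω], Y) ≅ Fun ρ Ω`,
 * hence (LT): finite `G`-sets with the same fixed point numbers have the same `e (Fun ρ Ω)`.
-/
import Fermat.Agent.S56.EA.LT

set_option autoImplicit false

noncomputable section

namespace Fermat.Agent.S56.EA

open Fermat.Agent.S55 Module

variable {p : ℕ} [Fact p.Prime] {G : Type} [Group G] {N : Subgroup G}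

/-- the permutation lattice. -/
abbrev permZ (G : Type) [Group G] (Ω : Type) [MulAction G Ω] : Representation ℤ G (Ω → ℤ) :=
  Fun (Representation.trivial ℤ G ℤ) Ω

/-- number of fixed points of `g`. -/
def nfix (Ω : Type) [MulAction G Ω] (g : G) : ℕ := Nat.card (MulAction.fixedBy Ω g)

/-- trace of a permutation matrix.  (`LinearMap.trace_eq_matrix_trace` with `Pi.basisFun ℤ Ω`: the
diagonal entry at `w` is `1` if `g⁻¹ • w = w` and `0` otherwise.) -/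
theorem trace_permZ (Ω : Type) [MulAction G Ω] [Finite Ω] (g : G) :
    LinearMap.trace ℤ (Ω → ℤ) (permZ G Ω g) = nfix Ω g := by
  classical
  have : Fintype Ω := Fintype.ofFinite Ω
  rw [LinearMap.trace_eq_matrix_trace ℤ (Pi.basisFun ℤ Ω), Matrix.trace]
  have h1 : ∀ w : Ω, Matrix.diag (LinearMap.toMatrix (Pi.basisFun ℤ Ω) (Pi.basisFun ℤ Ω)
      (permZ G Ω g)) w = if g • w = w then 1 else 0 := by
    intro w
    rw [Matrix.diag_apply, LinearMap.toMatrix_apply, Pi.basisFun_repr, Pi.basisFun_apply,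
      Fun_apply, Pi.single_apply]
    have h2 : g⁻¹ • w = w ↔ g • w = w := by
      rw [inv_smul_eq_iff, eq_comm]
    simp only [h2]
    split_ifs <;> simp
  rw [Finset.sum_congr rfl (fun w _ => h1 w), Finset.sum_boole, nfix, Nat.card_eq_fintype_card]
  congr 1
  rw [Fintype.card_subtype]
  rfl

lemma permZ_trivial_on (Ω : Type) [MulAction G Ω] (hΩ : ∀ n ∈ N, ∀ w : Ω, n • w = w) :
    ∀ n ∈ N, permZ G Ω n = 1 := by
  intro n hn
  ext f w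
  simp [hΩ n⁻¹ (N.inv_mem hn) w]

lemma Fun_trivial_on {Y : Type} [AddCommGroup Y] [Module (ZMod p) Y]
    {ρ : Representation (ZMod p) G Y} (hρ : ∀ n ∈ N, ρ n = 1)
    (Ω : Type) [MulAction G Ω] (hΩ : ∀ n ∈ N, ∀ w : Ω, n • w = w) :
    ∀ n ∈ N, Fun ρ Ω n = 1 := by
  intro n hn
  ext f w
  simp [hΩ n⁻¹ (N.inv_mem hn) w, hρ n hn]

/-- `Hom_ℤ(ℤ[Ω], Y) ≃ (Ω → Y)`, `φ ↦ (w ↦ φ (Pi.single w 1))`, equivariant. -/
theorem exists_homRep_permZ_equiv {Y : Type} [AddCommGroup Y] [Module (ZMod p) Y]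
    (ρ : Representation (ZMod p) G Y) (Ω : Type) [MulAction G Ω] [Finite Ω] :
    ∃ φ : ((Ω → ℤ) →ₗ[ℤ] Y) ≃ₗ[ZMod p] (Ω → Y),
      ∀ g f, φ (homRep (permZ G Ω) ρ g f) = Fun ρ Ω g (φ f) := by
  classical
  have : Fintype Ω := Fintype.ofFinite Ω
  refine ⟨((Pi.basisFun ℤ Ω).constr (ZMod p)).symm, fun g f => ?_⟩
  funext w
  have h1 : ∀ (f' : (Ω → ℤ) →ₗ[ℤ] Y) (w' : Ω),
      ((Pi.basisFun ℤ Ω).constr (ZMod p)).symm f' w' = f' (Pi.single w' 1) := by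
    intro f' w'
    rw [← Pi.basisFun_apply]
    rfl
  have h2 : permZ G Ω g⁻¹ (Pi.single w 1) = Pi.single (g⁻¹ • w) 1 := by
    funext w'
    rw [Fun_apply, inv_inv, Pi.single_apply, Pi.single_apply]
    have h3 : g • w' = w ↔ w' = g⁻¹ • w := by
      rw [eq_inv_smul_iff]
    simp only [h3]
    split_ifs <;> simp
  rw [h1, homRep_apply, h2, Fun_apply, h1]

/-- (LT) for `G`-sets. -/
theorem e_Fun_of_nfix_eq (a : AddInv p G N) [N.Normal] [Finite (G ⧸ N)]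
    {Y : Type} [AddCommGroup Y] [Module (ZMod p) Y] [FiniteDimensional (ZMod p) Y]
    {ρ : Representation (ZMod p) G Y} (hρ : ∀ n ∈ N, ρ n = 1)
    (Ω₁ Ω₂ : Type) [MulAction G Ω₁] [MulAction G Ω₂] [Finite Ω₁] [Finite Ω₂]
    (h₁ : ∀ n ∈ N, ∀ w : Ω₁, n • w = w) (h₂ : ∀ n ∈ N, ∀ w : Ω₂, n • w = w)
    (h : ∀ g : G, nfix Ω₁ g = nfix Ω₂ g) : a.e (Fun ρ Ω₁) = a.e (Fun ρ Ω₂) := by
  obtain ⟨φ₁, hφ₁⟩ := exists_homRep_permZ_equiv ρ Ω₁
  obtain ⟨φ₂, hφ₂⟩ := exists_homRep_permZ_equiv ρ Ω₂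
  have t₁ := permZ_trivial_on (N := N) Ω₁ h₁
  have t₂ := permZ_trivial_on (N := N) Ω₂ h₂
  rw [← a.e_congr (homRep_trivial_on t₁ hρ) φ₁ hφ₁, ← a.e_congr (homRep_trivial_on t₂ hρ) φ₂ hφ₂]
  exact e_homRep_of_trace_eq a t₁ t₂ hρ (fun g => by rw [trace_permZ, trace_permZ, h g])

end Fermat.Agent.S56.EA

end
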