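/-
S56 / EA / Artin : transfer of `exists_artin_fin` from `Γ = G ⧸ N` to `G`.

PROOF.  `I := G ⧸ N`, `t := Quotient.out`.  For `t : G` with image `h` in `Γ`:
`G ⧸ (N ⊔ zpowers t) ≃ Γ ⧸ zpowers h`, `g U ↦ ḡ ⟨h⟩` is a bijection compatible with the actions
(`x ∈ N ⊔ zpowers t ↔ x̄ ∈ zpowers h`), so the numbers of fixed points of `g` and `ḡ` agree.
-/
import Fermat.Agent.S56.EA.ArtinFin
import Fermat.Agent.S56.EA.Perm

set_option autoImplicit false

noncomputable section

namespace Fermat.Agent.S56.EA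

/-- `x ∈ N ⊔ ⟨t⟩ ↔ x̄ ∈ ⟨t̄⟩`. -/
theorem Artin_mem_sup_iff {G : Type} [Group G] (N : Subgroup G) [N.Normal] (t x : G) :
    x ∈ N ⊔ Subgroup.zpowers t ↔
      (QuotientGroup.mk' N x) ∈ Subgroup.zpowers (QuotientGroup.mk' N t) := by
  have h : (Subgroup.zpowers (QuotientGroup.mk' N t)).comap (QuotientGroup.mk' N)
      = N ⊔ Subgroup.zpowers t := by
    rw [← MonoidHom.map_zpowers, Subgroup.comap_map_eq, QuotientGroup.ker_mk', sup_comm]
  rw [← h, Subgroup.mem_comap]

/-- the number of fixed points of `g` on `G/(N ⊔ ⟨t⟩)` and of `ḡ` on `(G/N)/⟨t̄⟩` agree. -/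
theorem Artin_nfix_eq {G : Type} [Group G] (N : Subgroup G) [N.Normal] (t g : G) :
    nfix (G ⧸ (N ⊔ Subgroup.zpowers t)) g
      = Nat.card (MulAction.fixedBy ((G ⧸ N) ⧸ Subgroup.zpowers (QuotientGroup.mk' N t))
          (QuotientGroup.mk' N g)) := by
  set π := QuotientGroup.mk' N with hπ
  set U := N ⊔ Subgroup.zpowers t with hU
  set H := Subgroup.zpowers (π t) with hH
  let φ : G ⧸ U → (G ⧸ N) ⧸ H := Quotient.map' π (fun a b hab => by
    rw [QuotientGroup.leftRel_apply] at hab ⊢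
    rw [← map_inv, ← map_mul]
    exact (Artin_mem_sup_iff N t _).1 hab)
  have hφ : ∀ a : G, φ (QuotientGroup.mk a) = QuotientGroup.mk (π a) := fun a => rfl
  have hinj : Function.Injective φ := by
    intro w₁ w₂
    induction w₁ using QuotientGroup.induction_on with | H a => ?_
    induction w₂ using QuotientGroup.induction_on with | H b => ?_
    intro h
    rw [hφ, hφ, QuotientGroup.eq, ← map_inv, ← map_mul] at h
    rw [QuotientGroup.eq]
    exact (Artin_mem_sup_iff N t _).2 h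
  have hsurj : Function.Surjective φ := by
    intro w
    induction w using QuotientGroup.induction_on with | H a => ?_
    obtain ⟨a, rfl⟩ := QuotientGroup.mk'_surjective N a
    exact ⟨QuotientGroup.mk a, rfl⟩
  have heq : ∀ w : G ⧸ U, φ (g • w) = π g • φ w := by
    intro w
    induction w using QuotientGroup.induction_on with | H a => ?_
    change φ (QuotientGroup.mk (g * a)) = QuotientGroup.mk (π g * π a)
    rw [hφ, map_mul]
  refine Nat.card_congr ((Equiv.ofBijective φ ⟨hinj, hsurj⟩).subtypeEquiv fun w => ?_)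
  rw [MulAction.mem_fixedBy, MulAction.mem_fixedBy, Equiv.ofBijective_apply, ← heq]
  exact ⟨fun h => by rw [h], fun h => hinj h⟩

theorem exists_artin {G : Type} [Group G] (N : Subgroup G) [N.Normal] [Finite (G ⧸ N)] :
    ∃ (I : Type) (_ : Fintype I) (t : I → G) (c : I → ℤ) (n : ℕ), n ≠ 0 ∧ ∀ g : G,
      ∑ i, c i * (nfix (G ⧸ (N ⊔ Subgroup.zpowers (t i))) g : ℤ) = n := by
  letI : Fintype (G ⧸ N) := Fintype.ofFinite _
  obtain ⟨c, n, hn, h⟩ := exists_artin_fin (G ⧸ N)
  refine ⟨G ⧸ N, inferInstance, Quotient.out, c, n, hn, fun g => ?_⟩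
  rw [← h (QuotientGroup.mk' N g)]
  refine Finset.sum_congr rfl fun i _ => ?_
  rw [Artin_nfix_eq]
  have hi : QuotientGroup.mk' N (Quotient.out i) = i := Quotient.out_eq' i
  rw [hi]

end Fermat.Agent.S56.EA

end
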