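/-
S56 / EA / Nilp : nilpotent filtration
-/
import Fermat.Agent.S56.EA.AddInv

set_option autoImplicit false

noncomputable section

namespace Fermat.Agent.S56.EA

open Fermat.Agent.S55 Module

variable {p : ℕ} [Fact p.Prime] {G : Type} [Group G] {N : Subgroup G} (a : AddInv p G N)

namespace AddInv

/-- powers of an equivariant endomorphism are equivariant. -/
theorem Nilp_pow_comm {X : Type} [AddCommGroup X] [Module (ZMod p) X]
    {ρ : Representation (ZMod p) G X} (ε : X →ₗ[ZMod p] X) (hε : ∀ g x, ε (ρ g x) = ρ g (ε x))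
    (i : ℕ) : ∀ g x, (ε ^ i) (ρ g x) = ρ g ((ε ^ i) x) := by
  induction i with
  | zero => intro g x; simp
  | succ i ih =>
    intro g x
    rw [pow_succ, Module.End.mul_apply, Module.End.mul_apply, hε, ih]

/-- the sequence `0 → ker ε^i → ker ε^(i+1) → ker ε → 0`. -/
def Nilp_ses {X : Type} [AddCommGroup X] [Module (ZMod p) X]
    {ρ : Representation (ZMod p) G X} (ε : X →ₗ[ZMod p] X) (hε : ∀ g x, ε (ρ g x) = ρ g (ε x))
    (q : ℕ) (h0 : ε ^ q = 0) (h1 : LinearMap.ker ε ≤ LinearMap.range (ε ^ (q - 1)))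
    (i : ℕ) (hi : i < q) :
    SES (kerRep (ε ^ i) (Nilp_pow_comm ε hε i)) (kerRep (ε ^ (i + 1)) (Nilp_pow_comm ε hε (i + 1)))
      (kerRep ε hε) where
  i := Submodule.inclusion (by
    intro x hx
    rw [LinearMap.mem_ker] at hx ⊢
    rw [pow_succ', Module.End.mul_apply, hx, map_zero])
  π := ((ε ^ i).comp (LinearMap.ker (ε ^ (i + 1))).subtype).codRestrict (LinearMap.ker ε) (by
    rintro ⟨x, hx⟩
    rw [LinearMap.mem_ker, pow_succ', Module.End.mul_apply] at hx
    exact LinearMap.mem_ker.2 hx)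
  i_comm _ _ := rfl
  π_comm g b := Subtype.ext (Nilp_pow_comm ε hε i g b.1)
  inj := Submodule.inclusion_injective _
  surj := by
    rintro ⟨x, hx⟩
    obtain ⟨y, rfl⟩ := h1 hx
    have e1 : q - 1 = i + (q - 1 - i) := by omega
    have e2 : q = (i + 1) + (q - 1 - i) := by omega
    refine ⟨⟨(ε ^ (q - 1 - i)) y, ?_⟩, Subtype.ext ?_⟩
    · rw [LinearMap.mem_ker, ← Module.End.mul_apply, ← pow_add, ← e2, h0, LinearMap.zero_apply]
    · show (ε ^ i) ((ε ^ (q - 1 - i)) y) = (ε ^ (q - 1)) y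
      rw [← Module.End.mul_apply, ← pow_add, ← e1]
  exact := by
    intro b
    constructor
    · intro hb
      have hb' : (ε ^ i) b.1 = 0 := congrArg Subtype.val hb
      exact ⟨⟨b.1, LinearMap.mem_ker.2 hb'⟩, Subtype.ext rfl⟩
    · rintro ⟨x, rfl⟩
      exact Subtype.ext (LinearMap.mem_ker.1 x.2)

/-- NILPOTENT FILTRATION.  `ε` an equivariant endomorphism of `X` with `ε ^ q = 0` and
`ker ε ≤ range (ε ^ (q-1))`.  Then `e X = q * e (ker ε)`.
Proof: `K i := ker (ε ^ i)`; claim `e (K i) = i * e (K 1)` for `i ≤ q` by induction: `ε ^ i` maps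
`K (i+1)` ONTO `K 1` (if `x ∈ K 1`, `x = ε^(q-1) h`, then `ε^(q-1-i) h ∈ K (i+1)` is a preimage) with
kernel `K i`; use `e_eq_ker_add_range` for the restriction of `ε ^ i` to `K (i+1)` and `e_congr`.
`K q = ⊤`. -/
theorem e_eq_mul_of_nilpotent {X : Type} [AddCommGroup X] [Module (ZMod p) X]
    [FiniteDimensional (ZMod p) X] {ρ : Representation (ZMod p) G X} (hρ : ∀ n ∈ N, ρ n = 1)
    (ε : X →ₗ[ZMod p] X) (hε : ∀ g x, ε (ρ g x) = ρ g (ε x)) (q : ℕ) (hq : 0 < q)
    (h0 : ε ^ q = 0) (h1 : LinearMap.ker ε ≤ LinearMap.range (ε ^ (q - 1))) :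
    a.e ρ = q * a.e (kerRep ε hε) := by
  have htriv : ∀ (i : ℕ) (n : G), n ∈ N → kerRep (ε ^ i) (Nilp_pow_comm ε hε i) n = 1 := by
    intro i n hn
    ext x
    show ρ n x.1 = x.1
    rw [hρ n hn]; rfl
  have key : ∀ i : ℕ, i ≤ q →
      a.e (kerRep (ε ^ i) (Nilp_pow_comm ε hε i)) = i * a.e (kerRep ε hε) := by
    intro i
    induction i with
    | zero =>
      intro _
      have : Subsingleton (LinearMap.ker (ε ^ 0)) := by
        refine ⟨?_⟩
        rintro ⟨x, hx⟩ ⟨y, hy⟩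
        rw [LinearMap.mem_ker, pow_zero, Module.End.one_apply] at hx hy
        exact Subtype.ext (hx.trans hy.symm)
      rw [a.e_of_subsingleton]
      simp
    | succ i ih =>
      intro hi
      rw [a.add (htriv (i + 1)) (Nilp_ses ε hε q h0 h1 i hi), ih (by omega)]
      push_cast
      ring
  rw [← key q le_rfl]
  -- `ker (ε ^ q) = ⊤`
  have htop : LinearMap.ker (ε ^ q) = ⊤ := by rw [h0]; exact LinearMap.ker_zero
  refine (a.e_congr (htriv q) (LinearEquiv.ofTop (LinearMap.ker (ε ^ q)) htop) ?_).symm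
  intro g x
  rfl

end AddInv

end Fermat.Agent.S56.EA

end
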