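/-
S56 / EA / AddInvPi : additivity on finite products
-/
import Fermat.Agent.S56.EA.AddInv

set_option autoImplicit false

noncomputable section

namespace Fermat.Agent.S56.EA

open Fermat.Agent.S55 Module

variable {p : ℕ} [Fact p.Prime] {G : Type} [Group G] {N : Subgroup G} (a : AddInv p G N)

namespace AddInv

theorem AddInvPi_piRep_one {ι : Type} {Y : ι → Type} [∀ j, AddCommGroup (Y j)]
    [∀ j, Module (ZMod p) (Y j)] (σ : ∀ j, Representation (ZMod p) G (Y j))
    (hσ : ∀ j, ∀ n ∈ N, σ j n = 1) : ∀ n ∈ N, piRep σ n = 1 := by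
  intro n hn
  apply LinearMap.ext
  intro f
  funext j
  rw [piRep_apply, hσ j n hn]
  rfl

theorem AddInvPi_fin (n : ℕ) : ∀ (Y : Fin n → Type) [∀ j, AddCommGroup (Y j)]
    [∀ j, Module (ZMod p) (Y j)] [∀ j, FiniteDimensional (ZMod p) (Y j)]
    (σ : ∀ j, Representation (ZMod p) G (Y j)) (_ : ∀ j, ∀ n ∈ N, σ j n = 1),
    a.e (piRep σ) = ∑ j, a.e (σ j) := by
  induction n with
  | zero =>
    intro Y _ _ _ σ _
    rw [a.e_of_subsingleton]
    simp
  | succ n ih =>
    intro Y _ _ _ σ hσ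
    have h1 : a.e (piRep σ) = a.e ((σ 0).prod (piRep fun i : Fin n => σ i.succ)) :=
      a.e_congr (AddInvPi_piRep_one σ hσ) (Fin.consLinearEquiv (ZMod p) Y).symm
        (fun g f => rfl)
    rw [h1, a.e_prod (hσ 0) (AddInvPi_piRep_one _ fun i => hσ i.succ),
      ih (fun i => Y i.succ) (fun i => σ i.succ) (fun i => hσ i.succ), Fin.sum_univ_succ]

/-- finite products.  (Induction on the finite type `ι` (`Finite.induction_empty_option`), using
`e_congr`, `e_prod`, `e_of_subsingleton`.) -/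
theorem e_piRep {ι : Type} [Fintype ι] {Y : ι → Type} [∀ j, AddCommGroup (Y j)]
    [∀ j, Module (ZMod p) (Y j)] [∀ j, FiniteDimensional (ZMod p) (Y j)]
    (σ : ∀ j, Representation (ZMod p) G (Y j)) (hσ : ∀ j, ∀ n ∈ N, σ j n = 1) :
    a.e (piRep σ) = ∑ j, a.e (σ j) := by
  let ε : ι ≃ Fin (Fintype.card ι) := Fintype.equivFin ι
  have h1 : a.e (piRep σ) = a.e (piRep fun i : Fin (Fintype.card ι) => σ (ε.symm i)) :=
    a.e_congr (AddInvPi_piRep_one σ hσ) (LinearEquiv.piCongrLeft' (ZMod p) Y ε) (fun g f => rfl)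
  rw [h1, AddInvPi_fin a _ (fun i => Y (ε.symm i)) (fun i => σ (ε.symm i))
    (fun i => hσ (ε.symm i))]
  exact Equiv.sum_comp ε.symm (fun j => a.e (σ j))

end AddInv

end Fermat.Agent.S56.EA

end
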