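/-
S56 / EA / Weights : (LT) for integer combinations of coset spaces.
-/
import Fermat.Agent.S56.EA.Perm
import Fermat.Agent.S56.EA.AddInvPi

set_option autoImplicit false

noncomputable section

namespace Fermat.Agent.S56.EA

open Fermat.Agent.S55 Module

variable {p : ℕ} [Fact p.Prime] {G : Type} [Group G] {N : Subgroup G}

/-- `N` (normal) acts trivially on `G ⧸ U` if `N ≤ U`. -/
lemma smul_coset_of_le [N.Normal] {U : Subgroup G} (hU : N ≤ U) :
    ∀ n ∈ N, ∀ w : G ⧸ U, n • w = w := by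
  intro n hn w
  induction w using QuotientGroup.induction_on with
  | H g =>
    show ((n * g : G) : G ⧸ U) = g
    rw [QuotientGroup.eq]
    have : (n * g)⁻¹ * g = g⁻¹ * n⁻¹ * g := by group
    rw [this]
    have h2 := (inferInstance : N.Normal).conj_mem n⁻¹ (N.inv_mem hn) g⁻¹
    rw [inv_inv] at h2
    exact hU h2

lemma finite_coset_of_le [Finite (G ⧸ N)] {U : Subgroup G} (hU : N ≤ U) : Finite (G ⧸ U) :=
  Finite.of_surjective (Quotient.map' (s₁ := QuotientGroup.leftRel N)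
    (s₂ := QuotientGroup.leftRel U) id (fun a b h => by
      rw [QuotientGroup.leftRel_apply] at h ⊢; exact hU h)) (by
      intro w
      induction w using QuotientGroup.induction_on with
      | H g => exact ⟨(g : G ⧸ N), rfl⟩)

/-- fixed points on a disjoint union. -/
theorem nfix_sigma {J : Type} [Fintype J] (V : J → Subgroup G) [∀ j, Finite (G ⧸ V j)] (g : G) :
    nfix (Σ j, G ⧸ V j) g = ∑ j, nfix (G ⧸ V j) g := by
  unfold nfix
  rw [← Nat.card_sigma]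
  refine Nat.card_congr
    { toFun := fun x => ⟨x.1.1, ⟨x.1.2, ?_⟩⟩
      invFun := fun x => ⟨⟨x.1, x.2.1⟩, ?_⟩
      left_inv := fun x => rfl
      right_inv := fun x => rfl }
  · have h := x.2
    rw [MulAction.mem_fixedBy] at h ⊢
    obtain ⟨⟨j, w⟩, hx⟩ := x
    rw [Sigma.smul_mk] at h
    simpa using h
  · have h := x.2.2
    rw [MulAction.mem_fixedBy] at h ⊢
    rw [Sigma.smul_mk, h]

/-- `Fun ρ (⊔ Ω_j) ≅ ∏ Fun ρ Ω_j` (`piRep`), then `AddInv.e_piRep`. -/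
theorem e_Fun_sigma (a : AddInv p G N) [N.Normal] [Finite (G ⧸ N)]
    {Y : Type} [AddCommGroup Y] [Module (ZMod p) Y] [FiniteDimensional (ZMod p) Y]
    {ρ : Representation (ZMod p) G Y} (hρ : ∀ n ∈ N, ρ n = 1)
    {J : Type} [Fintype J] (V : J → Subgroup G) (hV : ∀ j, N ≤ V j) :
    a.e (Fun ρ (Σ j, G ⧸ V j)) = ∑ j, a.e (Fun ρ (G ⧸ V j)) := by
  have hfin : ∀ j, Finite (G ⧸ V j) := fun j => finite_coset_of_le (hV j)
  have hΩ : ∀ n ∈ N, ∀ w : (Σ j, G ⧸ V j), n • w = w := by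
    rintro n hn ⟨j, w⟩
    rw [Sigma.smul_mk, smul_coset_of_le (hV j) n hn w]
  rw [← a.e_piRep (fun j => Fun ρ (G ⧸ V j))
    (fun j => Fun_trivial_on hρ _ (smul_coset_of_le (hV j)))]
  exact a.e_congr (Fun_trivial_on hρ _ hΩ)
    (LinearEquiv.piCurry (ZMod p) (fun (j : J) (_ : G ⧸ V j) => Y)) (fun g f => rfl)

/-- a sum over `Σ i, Fin (m i)` of a function of `i`. -/
theorem Weights_sum_sigma {I : Type} [Fintype I] {R : Type*} [CommSemiring R] (m : I → ℕ)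
    (F : I → R) : ∑ j : (Σ i, Fin (m i)), F j.1 = ∑ i, (m i : R) * F i := by
  rw [Fintype.sum_sigma]
  refine Finset.sum_congr rfl fun i _ => ?_
  show ∑ _y : Fin (m i), F i = _
  rw [Finset.sum_const, Finset.card_univ, Fintype.card_fin, nsmul_eq_mul]

/-- (LT) with integer weights.
Proof: `J₊ := Σ i, Fin (c i).toNat`, `J₋ := Σ i, Fin (- c i).toNat`, families `U ∘ Sigma.fst`;
`e_Fun_of_nfix_eq` for `Ω₊ = Σ j : J₊, G ⧸ U j.1`, `Ω₋`; `nfix_sigma`, `e_Fun_sigma`,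
`Fintype.sum_sigma`, `c i = (c i).toNat - (- c i).toNat`. -/
theorem sum_weights_eq_zero (a : AddInv p G N) [N.Normal] [Finite (G ⧸ N)]
    {Y : Type} [AddCommGroup Y] [Module (ZMod p) Y] [FiniteDimensional (ZMod p) Y]
    {ρ : Representation (ZMod p) G Y} (hρ : ∀ n ∈ N, ρ n = 1)
    {I : Type} [Fintype I] (U : I → Subgroup G) (hU : ∀ i, N ≤ U i) (c : I → ℤ)
    (h : ∀ g : G, ∑ i, c i * (nfix (G ⧸ U i) g : ℤ) = 0) :
    ∑ i, c i * a.e (Fun ρ (G ⧸ U i)) = 0 := by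
  have hfin : ∀ i, Finite (G ⧸ U i) := fun i => finite_coset_of_le (hU i)
  -- the two index types
  have hΩ : ∀ (m : I → ℕ), ∀ n ∈ N, ∀ w : (Σ j : (Σ i, Fin (m i)), G ⧸ U j.1), n • w = w := by
    rintro m n hn ⟨j, w⟩
    rw [Sigma.smul_mk, smul_coset_of_le (hU j.1) n hn w]
  have hn : ∀ (m : I → ℕ) (g : G), nfix (Σ j : (Σ i, Fin (m i)), G ⧸ U j.1) g
      = ∑ i, m i * nfix (G ⧸ U i) g := by
    intro m g
    rw [nfix_sigma (fun j : (Σ i, Fin (m i)) => U j.1) g]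
    exact Weights_sum_sigma m (fun i => nfix (G ⧸ U i) g)
  have he : ∀ (m : I → ℕ), a.e (Fun ρ (Σ j : (Σ i, Fin (m i)), G ⧸ U j.1))
      = ∑ i, (m i : ℤ) * a.e (Fun ρ (G ⧸ U i)) := by
    intro m
    rw [e_Fun_sigma a hρ (fun j : (Σ i, Fin (m i)) => U j.1) (fun j => hU j.1)]
    exact Weights_sum_sigma m (fun i => a.e (Fun ρ (G ⧸ U i)))
  have hc : ∀ i, c i = ((c i).toNat : ℤ) - ((-c i).toNat : ℤ) := fun i =>
    (Int.toNat_sub_toNat_neg (c i)).symm
  have key := e_Fun_of_nfix_eq a hρ (Σ j : (Σ i, Fin ((c i).toNat)), G ⧸ U j.1)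
    (Σ j : (Σ i, Fin ((-c i).toNat)), G ⧸ U j.1) (hΩ _) (hΩ _) (by
      intro g
      rw [hn, hn]
      have h1 := h g
      have h2 : ∑ i, c i * (nfix (G ⧸ U i) g : ℤ)
          = ((∑ i, (c i).toNat * nfix (G ⧸ U i) g : ℕ) : ℤ)
            - ((∑ i, (-c i).toNat * nfix (G ⧸ U i) g : ℕ) : ℤ) := by
        push_cast
        rw [← Finset.sum_sub_distrib]
        refine Finset.sum_congr rfl fun i _ => ?_
        conv_lhs => rw [hc i]
        ring
      rw [h2] at h1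
      omega)
  rw [he, he] at key
  have h3 : ∑ i, c i * a.e (Fun ρ (G ⧸ U i))
      = ∑ i, ((c i).toNat : ℤ) * a.e (Fun ρ (G ⧸ U i))
        - ∑ i, ((-c i).toNat : ℤ) * a.e (Fun ρ (G ⧸ U i)) := by
    rw [← Finset.sum_sub_distrib]
    refine Finset.sum_congr rfl fun i _ => ?_
    conv_lhs => rw [hc i]
    ring
  rw [h3, key, sub_self]

end Fermat.Agent.S56.EA

end
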