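/-
S56 / EA / PPart : removal of the `p`-part of a cyclic subgroup, inside the category of `G`-modules.

`U' ≤ G`, `σ` normalises `U'`, `σ ^ j ∈ U' ↔ q ∣ j` with `q = p ^ s`, `U := U' ⊔ ⟨σ⟩`.  Then
    `e (Fun ρ (G/U')) = q * e (Fun ρ (G/U))`.

PROOF.  `R : G/U' → G/U'`, `x U' ↦ x σ U'` is well defined (σ normalises `U'`), commutes with the left action of
`G`, `R ^ j w = w ↔ q ∣ j` (free action of `ℤ/q`).  `T f := f ∘ R` is an equivariant endomorphism of
`M = Fun ρ (G/U')` with `T ^ q = 1`; `ε := T - 1`.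
 (a) `ε ^ q = T ^ q - 1 = 0` (`sub_pow_char_pow` in the commutative ring `𝔽_p[T]`, or via `Polynomial.aeval`).
 (b) `ε ^ (q-1) = ∑_{j<q} T ^ j`: in `(ZMod p)[X]`, `(X-1)^(q-1) * (X-1) = X^q - 1 = (∑_{j<q} X^j) * (X-1)`
     (`geom_sum_mul`), cancel `X - 1`; apply `Polynomial.aeval T`.
 (c) `ker ε ≤ range (∑ T^j)`: choose a set `S` of representatives of the orbits of `R`; for `f` with `f ∘ R = f`,
     `h := f` on `S` and `0` elsewhere; `∑_{j<q} h (R^j w) = f w` since exactly one `j < q` has `R^j w ∈ S`.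
 (d) `ker ε ≅ Fun ρ (G/U)` by pull back along `G/U' → G/U` (the fibres are the orbits of `R` as `U = U' ⟨σ⟩`).
 Then `AddInv.e_eq_mul_of_nilpotent` and `AddInv.e_congr`.
-/
import Fermat.Agent.S56.EA.Nilp
import Fermat.Agent.S56.EA.Weights

set_option autoImplicit false

noncomputable section

namespace Fermat.Agent.S56.EA

open Fermat.Agent.S55 Module

section PPartGroup

variable {G : Type} [Group G] (U' : Subgroup G) (σ : G)

/-- right translation by `σ` on `G ⧸ U'`. -/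
def PPart_R (hσ : ∀ u, u ∈ U' ↔ σ * u * σ⁻¹ ∈ U') : G ⧸ U' → G ⧸ U' :=
  Quotient.map' (s₁ := QuotientGroup.leftRel U') (s₂ := QuotientGroup.leftRel U')
    (fun x => x * σ) (by
    intro x y h
    rw [QuotientGroup.leftRel_apply] at h ⊢
    rw [hσ]
    have : σ * ((x * σ)⁻¹ * (y * σ)) * σ⁻¹ = x⁻¹ * y := by group
    rw [this]; exact h)

variable {U' σ} (hσ : ∀ u, u ∈ U' ↔ σ * u * σ⁻¹ ∈ U')

lemma PPart_R_mk (x : G) : PPart_R U' σ hσ (x : G ⧸ U') = ((x * σ : G) : G ⧸ U') := rfl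

lemma PPart_R_iter (j : ℕ) (x : G) :
    (PPart_R U' σ hσ)^[j] (x : G ⧸ U') = ((x * σ ^ j : G) : G ⧸ U') := by
  induction j generalizing x with
  | zero => simp
  | succ j ih => rw [Function.iterate_succ_apply, PPart_R_mk, ih, pow_succ', mul_assoc]

lemma PPart_R_smul (g : G) (w : G ⧸ U') :
    PPart_R U' σ hσ (g • w) = g • PPart_R U' σ hσ w := by
  induction w using QuotientGroup.induction_on with
  | H x =>
    show (((g * x) * σ : G) : G ⧸ U') = ((g * (x * σ) : G) : G ⧸ U')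
    rw [mul_assoc]

/-- the projection `G ⧸ U' → G ⧸ (U' ⊔ ⟨σ⟩)`. -/
def PPart_pr (U' : Subgroup G) (σ : G) : G ⧸ U' → G ⧸ (U' ⊔ Subgroup.zpowers σ) :=
  Subgroup.quotientMapOfLE le_sup_left

lemma PPart_pr_mk (x : G) :
    PPart_pr U' σ (x : G ⧸ U') = (x : G ⧸ (U' ⊔ Subgroup.zpowers σ)) := rfl

lemma PPart_pr_surj : Function.Surjective (PPart_pr U' σ) := by
  intro w
  induction w using QuotientGroup.induction_on with
  | H x => exact ⟨(x : G ⧸ U'), rfl⟩

lemma PPart_pr_smul (g : G) (w : G ⧸ U') : PPart_pr U' σ (g • w) = g • PPart_pr U' σ w := by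
  induction w using QuotientGroup.induction_on with
  | H x => rfl

lemma PPart_pr_R (w : G ⧸ U') : PPart_pr U' σ (PPart_R U' σ hσ w) = PPart_pr U' σ w := by
  induction w using QuotientGroup.induction_on with
  | H x =>
    rw [PPart_R_mk, PPart_pr_mk, PPart_pr_mk, QuotientGroup.eq]
    have : (x * σ)⁻¹ * x = σ⁻¹ := by group
    rw [this]
    exact Subgroup.inv_mem _ (Subgroup.mem_sup_right (Subgroup.mem_zpowers σ))

lemma PPart_pr_iter (j : ℕ) (w : G ⧸ U') :
    PPart_pr U' σ ((PPart_R U' σ hσ)^[j] w) = PPart_pr U' σ w := by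
  induction j with
  | zero => rfl
  | succ j ih => rw [Function.iterate_succ_apply', PPart_pr_R, ih]

include hσ in
/-- elements of `U' ⊔ ⟨σ⟩`. -/
lemma PPart_mem_sup {q : ℕ} (hq : 0 < q) (hs : ∀ j : ℕ, σ ^ j ∈ U' ↔ q ∣ j) {g : G}
    (hg : g ∈ U' ⊔ Subgroup.zpowers σ) : ∃ j : ℕ, j < q ∧ (σ ^ j)⁻¹ * g ∈ U' := by
  have hle : Subgroup.zpowers σ ≤ Subgroup.normalizer (U' : Set G) := by
    rw [Subgroup.zpowers_le]
    exact Subgroup.mem_normalizer_iff.2 hσ
  have h1 : g ∈ ((Subgroup.zpowers σ ⊔ U' : Subgroup G) : Set G) := by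
    rw [sup_comm]; exact hg
  rw [Subgroup.coe_mul_of_left_le_normalizer_right _ _ hle] at h1
  obtain ⟨_, ⟨k, rfl⟩, u, hu, rfl⟩ := h1
  have hq' : (q : ℤ) ≠ 0 := by exact_mod_cast hq.ne'
  refine ⟨(k % q).toNat, ?_, ?_⟩
  · have := Int.emod_lt_of_pos k (by exact_mod_cast hq : (0 : ℤ) < q)
    have h0 := Int.emod_nonneg k hq'
    omega
  · have h0 := Int.emod_nonneg k hq'
    have h2 : σ ^ (k % q).toNat = σ ^ (k % q) := by
      rw [← zpow_natCast, Int.toNat_of_nonneg h0]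
    have h3 : σ ^ k = σ ^ (k % q) * (σ ^ q) ^ (k / q) := by
      rw [← zpow_natCast, ← zpow_mul, ← zpow_add, Int.emod_add_mul_ediv]
    show (σ ^ (k % q).toNat)⁻¹ * (σ ^ k * u) ∈ U'
    rw [h2, h3]
    have h4 : (σ ^ (k % (q : ℤ)))⁻¹ * (σ ^ (k % (q : ℤ)) * (σ ^ q) ^ (k / q) * u)
        = (σ ^ q) ^ (k / q) * u := by group
    rw [h4]
    exact U'.mul_mem (U'.zpow_mem ((hs q).2 dvd_rfl) _) hu

/-- fibres of the projection are the orbits of `R`. -/
lemma PPart_exists_iter {q : ℕ} (hq : 0 < q) (hs : ∀ j : ℕ, σ ^ j ∈ U' ↔ q ∣ j)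
    (w w' : G ⧸ U') (h : PPart_pr U' σ w = PPart_pr U' σ w') :
    ∃ j : ℕ, j < q ∧ (PPart_R U' σ hσ)^[j] w = w' := by
  induction w using QuotientGroup.induction_on with
  | H x =>
  induction w' using QuotientGroup.induction_on with
  | H y =>
    rw [PPart_pr_mk, PPart_pr_mk, QuotientGroup.eq] at h
    obtain ⟨j, hj, hm⟩ := PPart_mem_sup hσ hq hs h
    refine ⟨j, hj, ?_⟩
    rw [PPart_R_iter, QuotientGroup.eq]
    have : (x * σ ^ j)⁻¹ * y = (σ ^ j)⁻¹ * (x⁻¹ * y) := by group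
    rw [this]; exact hm

/-- the action of `R` is free. -/
lemma PPart_iter_inj {q : ℕ} (hs : ∀ j : ℕ, σ ^ j ∈ U' ↔ q ∣ j)
    (w : G ⧸ U') {i j : ℕ} (hi : i < q) (hj : j < q)
    (h : (PPart_R U' σ hσ)^[i] w = (PPart_R U' σ hσ)^[j] w) : i = j := by
  induction w using QuotientGroup.induction_on with
  | H x =>
    rw [PPart_R_iter, PPart_R_iter] at h
    wlog hij : i ≤ j generalizing i j
    · exact (this hj hi h.symm (by omega)).symm
    rw [QuotientGroup.eq] at h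
    have h1 : (x * σ ^ i)⁻¹ * (x * σ ^ j) = σ ^ (j - i) := by
      have : σ ^ j = σ ^ i * σ ^ (j - i) := by rw [← pow_add]; congr 1; omega
      rw [this]; group
    rw [h1, hs] at h
    have := Nat.eq_zero_of_dvd_of_lt h (by omega)
    omega

lemma PPart_iter_q {q : ℕ} (hs : ∀ j : ℕ, σ ^ j ∈ U' ↔ q ∣ j) (w : G ⧸ U') :
    (PPart_R U' σ hσ)^[q] w = w := by
  induction w using QuotientGroup.induction_on with
  | H x =>
    rw [PPart_R_iter, QuotientGroup.eq]
    have : (x * σ ^ q)⁻¹ * x = (σ ^ q)⁻¹ := by group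
    rw [this]
    exact U'.inv_mem ((hs q).2 dvd_rfl)

end PPartGroup

section PPartLin

variable {p : ℕ} [Fact p.Prime]

lemma PPart_poly_one (s : ℕ) :
    ((Polynomial.X : Polynomial (ZMod p)) - 1) ^ (p ^ s) = Polynomial.X ^ (p ^ s) - 1 := by
  rw [sub_pow_char_pow, one_pow]

lemma PPart_poly_two (s : ℕ) :
    ((Polynomial.X : Polynomial (ZMod p)) - 1) ^ (p ^ s - 1)
      = ∑ j ∈ Finset.range (p ^ s), Polynomial.X ^ j := by
  have hp : p.Prime := Fact.out
  have hne : ((Polynomial.X : Polynomial (ZMod p)) - 1) ≠ 0 := by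
    have := Polynomial.X_sub_C_ne_zero (1 : ZMod p)
    simpa using this
  apply mul_right_cancel₀ hne
  rw [← pow_succ, Nat.sub_add_cancel (Nat.one_le_pow _ _ hp.pos), PPart_poly_one, geom_sum_mul]

variable {M : Type} [AddCommGroup M] [Module (ZMod p) M]

lemma PPart_eps_pow (T : Module.End (ZMod p) M) (s : ℕ) (hT : T ^ (p ^ s) = 1) :
    (T - 1) ^ (p ^ s) = 0 := by
  have := congrArg (Polynomial.aeval T) (PPart_poly_one (p := p) s)
  simpa [hT] using this

lemma PPart_eps_pow_pred (T : Module.End (ZMod p) M) (s : ℕ) :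
    (T - 1) ^ (p ^ s - 1) = ∑ j ∈ Finset.range (p ^ s), T ^ j := by
  have := congrArg (Polynomial.aeval T) (PPart_poly_two (p := p) s)
  simpa using this

variable {Ω Y : Type} [AddCommGroup Y] [Module (ZMod p) Y] (R : Ω → Ω)

lemma PPart_T_pow (j : ℕ) (f : Ω → Y) (w : Ω) :
    ((LinearMap.funLeft (ZMod p) Y R ^ j) f) w = f (R^[j] w) := by
  induction j generalizing f with
  | zero => rfl
  | succ j ih =>
    rw [pow_succ, Module.End.mul_apply, ih, Function.iterate_succ_apply']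
    rfl

end PPartLin

variable {p : ℕ} [Fact p.Prime] {G : Type} [Group G] {N : Subgroup G}

theorem e_Fun_ppart (a : AddInv p G N) [N.Normal] [Finite (G ⧸ N)]
    {Y : Type} [AddCommGroup Y] [Module (ZMod p) Y] [FiniteDimensional (ZMod p) Y]
    {ρ : Representation (ZMod p) G Y} (hρ : ∀ n ∈ N, ρ n = 1)
    (U' : Subgroup G) (hU' : N ≤ U') (σ : G) (hσ : ∀ u, u ∈ U' ↔ σ * u * σ⁻¹ ∈ U')
    (s : ℕ) (hs : ∀ j : ℕ, σ ^ j ∈ U' ↔ p ^ s ∣ j) :
    a.e (Fun ρ (G ⧸ U')) = (p : ℤ) ^ s * a.e (Fun ρ (G ⧸ (U' ⊔ Subgroup.zpowers σ))) := by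
  classical
  have hp : p.Prime := Fact.out
  have hq : 0 < p ^ s := pow_pos hp.pos s
  have hU : N ≤ U' ⊔ Subgroup.zpowers σ := hU'.trans le_sup_left
  have : Finite (G ⧸ U') := finite_coset_of_le hU'
  have : Finite (G ⧸ (U' ⊔ Subgroup.zpowers σ)) := finite_coset_of_le hU
  set R := PPart_R U' σ hσ with hR
  set pr := PPart_pr U' σ with hpr
  set T : Module.End (ZMod p) (G ⧸ U' → Y) := LinearMap.funLeft (ZMod p) Y R with hT
  have hTq : T ^ (p ^ s) = 1 := by
    refine LinearMap.ext fun f => funext fun w => ?_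
    rw [hT, PPart_T_pow, hR, PPart_iter_q hσ hs]
    rfl
  have hε : ∀ g x, (T - 1) (Fun ρ (G ⧸ U') g x) = Fun ρ (G ⧸ U') g ((T - 1) x) := by
    intro g f
    ext w
    simp only [LinearMap.sub_apply, Module.End.one_apply, Pi.sub_apply, Fun_apply, map_sub, hT,
      LinearMap.funLeft_apply]
    rw [← PPart_R_smul hσ]
  have hpri : ∀ (j : ℕ) w, pr (R^[j] w) = pr w := PPart_pr_iter hσ
  have hinv : ∀ f : G ⧸ U' → Y, (T - 1) f = 0 → ∀ (j : ℕ) w, f (R^[j] w) = f w := by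
    intro f hf j w
    have h1 : ∀ w, f (R w) = f w := by
      intro w
      have := congrFun hf w
      simp only [LinearMap.sub_apply, Module.End.one_apply, Pi.sub_apply, hT,
        LinearMap.funLeft_apply, Pi.zero_apply] at this
      exact sub_eq_zero.1 this
    induction j with
    | zero => rfl
    | succ j ih => rw [Function.iterate_succ_apply', h1, ih]
  have h1 : LinearMap.ker (T - 1) ≤ LinearMap.range ((T - 1) ^ (p ^ s - 1)) := by
    intro f hf
    rw [LinearMap.mem_ker] at hf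
    rw [PPart_eps_pow_pred]
    let sec : G ⧸ (U' ⊔ Subgroup.zpowers σ) → G ⧸ U' := Function.surjInv PPart_pr_surj
    have hsec : ∀ v, pr (sec v) = v := Function.surjInv_eq PPart_pr_surj
    refine ⟨fun w => if sec (pr w) = w then f w else 0, ?_⟩
    ext w
    rw [LinearMap.sum_apply, Finset.sum_apply]
    simp only [PPart_T_pow, hT]
    obtain ⟨j₀, hj₀, hj₀'⟩ := PPart_exists_iter hσ hq hs w (sec (pr w)) (hsec _).symm
    rw [Finset.sum_eq_single j₀]
    · rw [hpri, if_pos hj₀'.symm, hinv f hf]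
    · intro j hj hne
      rw [hpri, if_neg]
      intro h2
      exact hne (PPart_iter_inj hσ hs w (Finset.mem_range.1 hj) hj₀ (h2.symm.trans hj₀'.symm))
    · intro h2
      exact absurd (Finset.mem_range.2 hj₀) h2
  rw [a.e_eq_mul_of_nilpotent (Fun_trivial_on hρ _ (smul_coset_of_le hU')) (T - 1) hε (p ^ s) hq
    (PPart_eps_pow T s hTq) h1]
  push_cast
  congr 1
  -- (d) `ker ε ≅ Fun ρ (G/U)`
  let Φ₀ : (G ⧸ (U' ⊔ Subgroup.zpowers σ) → Y) →ₗ[ZMod p] LinearMap.ker (T - 1) :=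
    (LinearMap.funLeft (ZMod p) Y pr).codRestrict (LinearMap.ker (T - 1)) (by
      intro f
      rw [LinearMap.mem_ker]
      ext w
      simp only [LinearMap.sub_apply, Module.End.one_apply, Pi.sub_apply, hT,
        LinearMap.funLeft_apply, Pi.zero_apply]
      rw [hpr, hR, PPart_pr_R hσ, sub_self])
  have hΦ₀ : ∀ f w, (Φ₀ f : G ⧸ U' → Y) w = f (pr w) := fun f w => rfl
  have hbij : Function.Bijective Φ₀ := by
    constructor
    · intro f f' hff
      ext v
      obtain ⟨w, rfl⟩ := PPart_pr_surj (U' := U') (σ := σ) v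
      have := congrFun (congrArg Subtype.val hff) w
      exact this
    · rintro ⟨f, hf⟩
      rw [LinearMap.mem_ker] at hf
      let sec : G ⧸ (U' ⊔ Subgroup.zpowers σ) → G ⧸ U' := Function.surjInv PPart_pr_surj
      have hsec : ∀ v, pr (sec v) = v := Function.surjInv_eq PPart_pr_surj
      refine ⟨fun v => f (sec v), Subtype.ext (funext fun w => ?_)⟩
      rw [hΦ₀]
      obtain ⟨j₀, hj₀, hj₀'⟩ := PPart_exists_iter hσ hq hs w (sec (pr w)) (hsec _).symm
      show f (sec (pr w)) = f w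
      rw [← hj₀', ← hR, hinv f hf]
  refine (a.e_congr (Fun_trivial_on hρ _ (smul_coset_of_le hU))
    (LinearEquiv.ofBijective Φ₀ hbij) ?_).symm
  intro g f
  apply Subtype.ext
  funext w
  show ρ g (f (g⁻¹ • pr w)) = ρ g (f (pr (g⁻¹ • w)))
  rw [hpr, PPart_pr_smul]

end Fermat.Agent.S56.EA

end
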