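/-
S56 / EA / Main : (EC2) an additive invariant which vanishes on `Fun ρ (G/U)` for all `U ⊇ N` with `U/N` cyclic of
order prime to `p` vanishes identically.
-/
import Fermat.Agent.S56.EA.PPart
import Fermat.Agent.S56.EA.Artin

set_option autoImplicit false

noncomputable section

namespace Fermat.Agent.S56.EA

open Fermat.Agent.S55 Module

variable {p : ℕ} [Fact p.Prime] {G : Type} [Group G] {N : Subgroup G}

/-- the hypothesis of (EC2) = the conclusion of (EC1). -/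
def AddInv.Base (a : AddInv p G N) : Prop :=
  ∀ (t : G) (m : ℕ), ¬ p ∣ m → t ^ m ∈ N →
    ∀ {Y : Type} [AddCommGroup Y] [Module (ZMod p) Y] [FiniteDimensional (ZMod p) Y]
      (ρ : Representation (ZMod p) G Y), (∀ n ∈ N, ρ n = 1) →
      a.e (Fun ρ (G ⧸ (N ⊔ Subgroup.zpowers t))) = 0

omit [Fact p.Prime] in
/-- membership in `N ⊔ ⟨y⟩` is tested in `G ⧸ N`. -/
theorem Main_mem_sup_zpowers_iff (N : Subgroup G) [N.Normal] (x y : G) :
    x ∈ N ⊔ Subgroup.zpowers y ↔ (x : G ⧸ N) ∈ Subgroup.zpowers (y : G ⧸ N) := by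
  have h1 : ((Subgroup.zpowers y).map (QuotientGroup.mk' N)).comap (QuotientGroup.mk' N) =
      Subgroup.zpowers y ⊔ N := by
    rw [Subgroup.comap_map_eq, QuotientGroup.ker_mk']
  rw [sup_comm, ← h1, Subgroup.mem_comap, MonoidHom.map_zpowers]
  rfl

/-- group theory for step 1.  `o := orderOf (t : G ⧸ N) = p ^ s * m`, `p ∤ m`
(`Nat.exists_eq_pow_mul_and_not_dvd`), `U' := N ⊔ ⟨t ^ (p^s)⟩`. `x ∈ N ⊔ zpowers y ↔ (x : G ⧸ N) ∈ zpowers (y : G ⧸ N)`;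
`t̄ ^ j ∈ ⟨t̄ ^ (p^s)⟩ ↔ p^s ∣ j` because `p^s ∣ orderOf t̄`. -/
theorem exists_ppart (N : Subgroup G) [N.Normal] [Finite (G ⧸ N)] (t : G) :
    ∃ (s m : ℕ), ¬ p ∣ m ∧ (t ^ p ^ s) ^ m ∈ N ∧
      (∀ u, u ∈ N ⊔ Subgroup.zpowers (t ^ p ^ s) ↔
        t * u * t⁻¹ ∈ N ⊔ Subgroup.zpowers (t ^ p ^ s)) ∧
      (∀ j : ℕ, t ^ j ∈ N ⊔ Subgroup.zpowers (t ^ p ^ s) ↔ p ^ s ∣ j) ∧
      (N ⊔ Subgroup.zpowers (t ^ p ^ s)) ⊔ Subgroup.zpowers t = N ⊔ Subgroup.zpowers t := by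
  have hp : p.Prime := Fact.out
  have ho : orderOf (t : G ⧸ N) ≠ 0 := (orderOf_pos _).ne'
  obtain ⟨s, m, hm, hsm⟩ := Nat.exists_eq_pow_mul_and_not_dvd ho p hp.ne_one
  refine ⟨s, m, hm, ?_, ?_, ?_, ?_⟩
  · rw [← QuotientGroup.eq_one_iff, ← pow_mul, QuotientGroup.mk_pow, ← hsm, pow_orderOf_eq_one]
  · intro u
    rw [Main_mem_sup_zpowers_iff, Main_mem_sup_zpowers_iff]
    have hcomm : ∀ z ∈ Subgroup.zpowers ((t ^ p ^ s : G) : G ⧸ N),
        (t : G ⧸ N) * z * (t : G ⧸ N)⁻¹ = z := by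
      rintro z ⟨k, rfl⟩
      have hc : Commute (t : G ⧸ N) ((((t ^ p ^ s : G) : G ⧸ N)) ^ k) := by
        rw [QuotientGroup.mk_pow]
        exact ((Commute.refl _).pow_right _).zpow_right _
      show (t : G ⧸ N) * _ * _ = _
      rw [hc.eq, mul_assoc, mul_inv_cancel, mul_one]
    have hcast : ((t * u * t⁻¹ : G) : G ⧸ N) = (t : G ⧸ N) * (u : G ⧸ N) * (t : G ⧸ N)⁻¹ := rfl
    rw [hcast]
    constructor
    · intro hu
      rw [hcomm _ hu]
      exact hu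
    · intro hz
      have h2 := hcomm _ hz
      have h3 : (u : G ⧸ N) = (t : G ⧸ N) * (u : G ⧸ N) * (t : G ⧸ N)⁻¹ := by
        have h4 : (t : G ⧸ N) * ((t : G ⧸ N) * (u : G ⧸ N) * (t : G ⧸ N)⁻¹) * (t : G ⧸ N)⁻¹ =
            (t : G ⧸ N) * (u : G ⧸ N) * (t : G ⧸ N)⁻¹ := h2
        have h5 := mul_right_cancel h4
        exact (mul_left_cancel h5).symm
      rw [h3]
      exact hz
  · intro j
    rw [Main_mem_sup_zpowers_iff, QuotientGroup.mk_pow, QuotientGroup.mk_pow]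
    constructor
    · rintro ⟨k, hk⟩
      have hk' : ((t : G ⧸ N) ^ p ^ s) ^ k = (t : G ⧸ N) ^ j := hk
      have h1 : (t : G ⧸ N) ^ ((j : ℤ) - (p ^ s : ℕ) * k) = 1 := by
        rw [zpow_sub, zpow_natCast, zpow_mul, zpow_natCast, hk', mul_inv_cancel]
      have h2 := orderOf_dvd_iff_zpow_eq_one.mpr h1
      have h3 : ((p ^ s : ℕ) : ℤ) ∣ (j : ℤ) - (p ^ s : ℕ) * k := by
        refine dvd_trans ?_ h2
        rw [hsm]
        exact Int.natCast_dvd_natCast.mpr (Dvd.intro _ rfl)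
      have h4 : ((p ^ s : ℕ) : ℤ) ∣ (j : ℤ) := by
        have := dvd_add h3 (Dvd.intro k rfl : ((p ^ s : ℕ) : ℤ) ∣ (p ^ s : ℕ) * k)
        simpa using this
      exact Int.natCast_dvd_natCast.mp h4
    · rintro ⟨k, rfl⟩
      refine ⟨k, ?_⟩
      show ((t : G ⧸ N) ^ p ^ s) ^ (k : ℤ) = _
      rw [zpow_natCast, ← pow_mul]
  · rw [sup_assoc]
    congr 1
    rw [sup_eq_right, Subgroup.zpowers_le]
    exact Subgroup.pow_mem _ (Subgroup.mem_zpowers t) _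

/-- step 1: all cyclic subgroups. -/
theorem AddInv.Base.cyclic {a : AddInv p G N} (ha : a.Base) [N.Normal] [Finite (G ⧸ N)] (t : G)
    {Y : Type} [AddCommGroup Y] [Module (ZMod p) Y] [FiniteDimensional (ZMod p) Y]
    {ρ : Representation (ZMod p) G Y} (hρ : ∀ n ∈ N, ρ n = 1) :
    a.e (Fun ρ (G ⧸ (N ⊔ Subgroup.zpowers t))) = 0 := by
  obtain ⟨s, m, hm, hmN, hnorm, hj, htop⟩ := exists_ppart (p := p) N t
  have h1 := e_Fun_ppart a hρ (N ⊔ Subgroup.zpowers (t ^ p ^ s)) le_sup_left t hnorm s hj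
  rw [ha (t ^ p ^ s) m hm hmN ρ hρ, htop] at h1
  have hp : ((p : ℤ) ^ s) ≠ 0 := pow_ne_zero _ (by exact_mod_cast (Fact.out : p.Prime).ne_zero)
  exact (mul_eq_zero.mp h1.symm).resolve_left hp

/-- `Fun ρ (G/⊤) ≅ ρ`. -/
theorem e_Fun_top (a : AddInv p G N)
    {Y : Type} [AddCommGroup Y] [Module (ZMod p) Y] [FiniteDimensional (ZMod p) Y]
    {ρ : Representation (ZMod p) G Y} (hρ : ∀ n ∈ N, ρ n = 1) :
    a.e (Fun ρ (G ⧸ (⊤ : Subgroup G))) = a.e ρ := by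
  have hsub : Subsingleton (G ⧸ (⊤ : Subgroup G)) := QuotientGroup.subsingleton_quotient_top
  let _ : Unique (G ⧸ (⊤ : Subgroup G)) := ⟨⟨((1 : G) : G ⧸ (⊤ : Subgroup G))⟩, fun _ => Subsingleton.elim _ _⟩
  refine a.e_congr (fun n hn => ?_) (LinearEquiv.funUnique (G ⧸ (⊤ : Subgroup G)) (ZMod p) Y) ?_
  · apply LinearMap.ext
    intro f
    funext w
    rw [Fun_apply, hρ n hn, Subsingleton.elim (n⁻¹ • w) w]
    rfl
  · intro g f
    show Fun ρ _ g f default = ρ g (f default)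
    rw [Fun_apply, Subsingleton.elim (g⁻¹ • default) default]

omit [Fact p.Prime] in
theorem nfix_top (g : G) : nfix (G ⧸ (⊤ : Subgroup G)) g = 1 := by
  have hsub : Subsingleton (G ⧸ (⊤ : Subgroup G)) := QuotientGroup.subsingleton_quotient_top
  unfold nfix
  rw [Nat.card_eq_one_iff_unique]
  refine ⟨⟨fun x y => Subtype.ext (Subsingleton.elim _ _)⟩,
    ⟨⟨((1 : G) : G ⧸ (⊤ : Subgroup G)), Subsingleton.elim _ _⟩⟩⟩

/-- (EC2). -/
theorem AddInv.Base.eq_zero {a : AddInv p G N} (ha : a.Base) [N.Normal] [Finite (G ⧸ N)]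
    {Y : Type} [AddCommGroup Y] [Module (ZMod p) Y] [FiniteDimensional (ZMod p) Y]
    {ρ : Representation (ZMod p) G Y} (hρ : ∀ n ∈ N, ρ n = 1) : a.e ρ = 0 := by
  obtain ⟨I, _, t, c, n, hn, h⟩ := exists_artin N
  have key := sum_weights_eq_zero a hρ (I := Option I)
    (fun o => o.elim ⊤ (fun i => N ⊔ Subgroup.zpowers (t i)))
    (by rintro (_ | i); exacts [le_top, le_sup_left])
    (fun o => o.elim (-(n : ℤ)) c)
    (by
      intro g
      rw [Fintype.sum_option]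
      show -(n : ℤ) * (nfix (G ⧸ (⊤ : Subgroup G)) g : ℤ) +
        ∑ i, c i * (nfix (G ⧸ (N ⊔ Subgroup.zpowers (t i))) g : ℤ) = 0
      rw [nfix_top, h g]; simp)
  rw [Fintype.sum_option] at key
  replace key : -(n : ℤ) * a.e (Fun ρ (G ⧸ (⊤ : Subgroup G))) +
      ∑ i, c i * a.e (Fun ρ (G ⧸ (N ⊔ Subgroup.zpowers (t i)))) = 0 := key
  rw [e_Fun_top a hρ, Finset.sum_eq_zero (fun i _ => by rw [ha.cyclic (t i) hρ, mul_zero]),
    add_zero] at key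
  have hn' : (-(n : ℤ)) ≠ 0 := by simpa using hn
  exact (mul_eq_zero.mp key).resolve_left hn'

end Fermat.Agent.S56.EA

end
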