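/-
S56 / EA / ChiM : the additive invariant in the shape used by EC1 (helper98):
     `e(ρ) = χ(ρ) + dim ρ^{c = -1}`,     `ρ^{c=-1} := ker (ρ c + 1)`.
-/
import Fermat.Agent.S56.EA.Chi

set_option autoImplicit false

noncomputable section

namespace Fermat.Agent.S56.EA

open Fermat.Agent.S55 Module

variable {p : ℕ} [Fact p.Prime] {𝒜 : Datum p}

-- HELPERS START
/-- membership in the `(-1)`-eigenspace. -/
theorem ChiM_mem_ker {G : Type} [Group G] (c : G) {X : Type} [AddCommGroup X]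
    [Module (ZMod p) X] (ρ : Representation (ZMod p) G X) (x : X) :
    x ∈ LinearMap.ker (ρ c + 1) ↔ ρ c x = -x := by
  rw [LinearMap.mem_ker, LinearMap.add_apply, Module.End.one_apply, add_eq_zero_iff_eq_neg]

/-- the `(-1)`-eigenspace of an involution is exact (`p` odd).
Proof: `ker (ρB c + 1) → ker (ρC c + 1)` is onto: lift `y` to `b`, take `2⁻¹ (b - c b)`; its kernel is the image of
`ker (ρA c + 1)`; rank-nullity. -/
theorem finrank_ker_invol_add (hp2 : p ≠ 2) {G : Type} [Group G] (c : G) (hc : c * c = 1)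
    {A B C : Type} [AddCommGroup A] [Module (ZMod p) A] [AddCommGroup B] [Module (ZMod p) B]
    [FiniteDimensional (ZMod p) B] [AddCommGroup C] [Module (ZMod p) C]
    {ρA : Representation (ZMod p) G A} {ρB : Representation (ZMod p) G B}
    {ρC : Representation (ZMod p) G C} (E : SES ρA ρB ρC) :
    finrank (ZMod p) ↥(LinearMap.ker (ρB c + 1)) =
      finrank (ZMod p) ↥(LinearMap.ker (ρA c + 1)) +
        finrank (ZMod p) ↥(LinearMap.ker (ρC c + 1)) := by
  have hp : p.Prime := Fact.out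
  have h2 : (2 : ZMod p) ≠ 0 := by
    intro h
    have h3 : ((2 : ℕ) : ZMod p) = 0 := by exact_mod_cast h
    rw [ZMod.natCast_eq_zero_iff] at h3
    exact hp2 ((Nat.prime_dvd_prime_iff_eq hp Nat.prime_two).1 h3)
  let f : ↥(LinearMap.ker (ρB c + 1)) →ₗ[ZMod p] ↥(LinearMap.ker (ρC c + 1)) :=
    E.π.restrict (fun b hb => by
      rw [ChiM_mem_ker] at hb ⊢
      rw [← E.π_comm, hb, map_neg])
  let g : ↥(LinearMap.ker (ρA c + 1)) →ₗ[ZMod p] ↥(LinearMap.ker (ρB c + 1)) :=
    E.i.restrict (fun a ha => by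
      rw [ChiM_mem_ker] at ha ⊢
      rw [← E.i_comm, ha, map_neg])
  have hf : ∀ b, ((f b : ↥(LinearMap.ker (ρC c + 1))) : C) = E.π (b : B) := fun _ => rfl
  have hg : ∀ a, ((g a : ↥(LinearMap.ker (ρB c + 1))) : B) = E.i (a : A) := fun _ => rfl
  have hfsurj : LinearMap.range f = ⊤ := by
    rw [LinearMap.range_eq_top]
    intro y
    have hy : ρC c (y : C) = -y := (ChiM_mem_ker c ρC _).1 y.2
    obtain ⟨b, hb⟩ := E.surj (y : C)
    have hcc : ρB c (ρB c b) = b := by
      rw [← Module.End.mul_apply, ← map_mul, hc, map_one, Module.End.one_apply]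
    refine ⟨⟨(2 : ZMod p)⁻¹ • (b - ρB c b), ?_⟩, ?_⟩
    · rw [ChiM_mem_ker, map_smul, map_sub, hcc, ← smul_neg, neg_sub]
    · apply Subtype.ext
      rw [hf]
      show E.π ((2 : ZMod p)⁻¹ • (b - ρB c b)) = y
      rw [map_smul, map_sub, E.π_comm, hb, hy, sub_neg_eq_add, ← two_smul (ZMod p) (y : C),
        smul_smul, inv_mul_cancel₀ h2, one_smul]
  have hginj : Function.Injective g := by
    intro a a' h
    apply Subtype.ext
    apply E.inj
    rw [← hg, ← hg, h]
  have hker : LinearMap.ker f = LinearMap.range g := by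
    ext b
    rw [LinearMap.mem_ker, LinearMap.mem_range]
    constructor
    · intro h
      have h0 : E.π (b : B) = 0 := by rw [← hf, h]; rfl
      obtain ⟨a, ha⟩ := (E.exact _).1 h0
      have hb : ρB c (b : B) = -b := (ChiM_mem_ker c ρB _).1 b.2
      refine ⟨⟨a, ?_⟩, ?_⟩
      · rw [ChiM_mem_ker]
        apply E.inj
        rw [E.i_comm, map_neg, ha, hb]
      · apply Subtype.ext
        rw [hg]
        exact ha
    · rintro ⟨a, rfl⟩
      apply Subtype.ext
      rw [hf, hg]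
      exact (E.exact _).2 ⟨_, rfl⟩
  have h3 := LinearMap.finrank_range_add_finrank_ker f
  rw [hfsurj, finrank_top, hker, LinearMap.finrank_range_of_inj hginj] at h3
  omega

/-- THE INVARIANT  `e(ρ) = χ(ρ) + dim ρ^{c=-1}`. -/
def eulerInvM (ax : 𝒜.Axioms) (hp2 : p ≠ 2) (N : Subgroup 𝒜.G) (hN : 𝒜.L.IsOpen N) (c : 𝒜.G)
    (hc : c * c = 1) : AddInv p 𝒜.G N where
  e ρ := 𝒜.chi ρ + finrank (ZMod p) ↥(LinearMap.ker (ρ c + 1))
  add := by
    intro A B C _ _ _ _ _ _ _ ρA ρB ρC hB E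
    have : FiniteDimensional (ZMod p) A := FiniteDimensional.of_injective E.i E.inj
    have : FiniteDimensional (ZMod p) C := FiniteDimensional.of_surjective E.π E.surj
    have : Smooth 𝒜.L ρB := smooth_of_trivial_on hN hB
    have : Smooth 𝒜.L ρA := 𝒜.smooth_of_injective E.i E.i_comm E.inj
    have : Smooth 𝒜.L ρC := 𝒜.smooth_of_surjective E.π E.π_comm E.surj
    have h1 := (chi_add_both ax E).1
    have h2 := finrank_ker_invol_add hp2 c hc E
    rw [h1, h2]
    push_cast
    ring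

@[simp] lemma eulerInvM_e (ax : 𝒜.Axioms) (hp2 : p ≠ 2) (N : Subgroup 𝒜.G) (hN : 𝒜.L.IsOpen N)
    (c : 𝒜.G) (hc : c * c = 1) {X : Type} [AddCommGroup X] [Module (ZMod p) X]
    (ρ : Representation (ZMod p) 𝒜.G X) :
    (eulerInvM ax hp2 N hN c hc).e ρ =
      𝒜.chi ρ + finrank (ZMod p) ↥(LinearMap.ker (ρ c + 1)) := rfl

end Fermat.Agent.S56.EA

end
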