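/-
S56 / EA / FinalA : small facts on `ω(c)`, `ker M`
-/
import Fermat.Agent.S56.Top.Res

set_option autoImplicit false

noncomputable section

namespace Fermat.Agent.S56.EA

open Fermat.Agent.S55 Fermat.Agent.S55.Places ExtCitation Module

variable {p : ℕ} [Fact p.Prime]

variable {k : Type} [Field k] [Finite k] [Algebra (ZMod p) k]

/-- `ω(c) = -1`.  (`Fermat.Agent.ES...complexConjugation_rootOfUnity`-style: `c ζ = ζ⁻¹`; `S55.Z.Cyclo` /
`ExtCitation` describe `cycloChar` on `p`-th roots of unity.) -/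
theorem cycloChar_complexConjugation : cycloChar p complexConjugation = -1 := by
  have hp : p.Prime := Fact.out
  have : NeZero p := ⟨hp.ne_zero⟩
  have hz : IsPrimitiveRoot ((zeta p : Qbarˣ) : Qbar) p :=
    IsPrimitiveRoot.coe_units_iff.2 (zeta_spec p)
  have h1 := cycloChar_spec p complexConjugation (zeta p) (zeta_spec p).pow_eq_one
  have h2 : complexConjugation ((zeta p : Qbarˣ) : Qbar) = ((zeta p : Qbarˣ) : Qbar)⁻¹ := by
    apply complexEmbedding.toRingHom.injective
    change complexEmbedding (complexConjugation _) = complexEmbedding _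
    rw [complexEmbedding_complexConjugation, map_inv₀]
    have h1 : (complexEmbedding ((zeta p : Qbarˣ) : Qbar)) ^ p = 1 := by
      rw [← map_pow, hz.pow_eq_one, map_one]
    have h2 : ‖complexEmbedding ((zeta p : Qbarˣ) : Qbar)‖ = 1 :=
      Complex.norm_eq_one_of_pow_eq_one h1 hp.ne_zero
    rw [Complex.inv_def, Complex.normSq_eq_norm_sq, h2]
    simp
  have h3 : ((zeta p : Qbarˣ) : Qbar)⁻¹ = ((zeta p : Qbarˣ) : Qbar) ^ (p - 1) := by
    rw [inv_eq_iff_eq_inv]
    refine eq_inv_of_mul_eq_one_left ?_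
    rw [← pow_succ', Nat.sub_add_cancel hp.one_le, hz.pow_eq_one]
  have h4 : ((cycloChar p complexConjugation : (ZMod p)ˣ) : ZMod p).val = p - 1 := by
    refine hz.pow_inj (ZMod.val_lt _) (Nat.sub_lt hp.pos one_pos) ?_
    rw [← h1, h2, h3]
  apply Units.ext
  rw [Units.val_neg, Units.val_one, ← ZMod.natCast_zmod_val
    ((cycloChar p complexConjugation : (ZMod p)ˣ) : ZMod p), h4, Nat.cast_sub hp.one_le]
  simp

/-- `ker M ≤ ker ω` (`hM.det`, injectivity of `algebraMap (ZMod p) k`). -/
theorem ker_le_ker_cycloChar (M : GQ →* M2 k) (hM : ResHyp p M) : M.ker ≤ (cycloChar p).ker := by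
  intro σ hσ
  rw [MonoidHom.mem_ker] at hσ ⊢
  have h := hM.det σ
  rw [hσ, Matrix.det_one, ← map_one (algebraMap (ZMod p) k)] at h
  exact Units.ext ((algebraMap (ZMod p) k).injective h).symm

/-- `W'` is trivial on `ker M`. -/
theorem dualT_ad0_trivial_on (M : GQ →* M2 k) (hM : ResHyp p M) :
    ∀ n ∈ M.ker, ((ad0 p M).dual.twist (cycloChar p)) n = 1 := by
  intro n hn
  have h1 : cycloChar p n = 1 := ker_le_ker_cycloChar M hM hn
  have hn' : M n = 1 := hn
  have hinv : M n⁻¹ = 1 := by
    have h := map_mul M n⁻¹ n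
    rw [inv_mul_cancel, map_one, hn', mul_one] at h
    exact h.symm
  have h2 : ad0 p M n⁻¹ = 1 := by
    ext X : 2
    rw [ad0_apply_coe, inv_inv, hinv, hn']
    simp
  ext φ X
  rw [Representation.twist_apply_apply, h1, Representation.dual_apply]
  rw [h2, Units.val_one, one_smul]
  rfl

end Fermat.Agent.S56.EA

end
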