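/-
S56 / EA / FinalB : `dim (ad⁰(1))^{c=-1} ≥ f`
-/
import Fermat.Agent.S56.EA.FinalA

set_option autoImplicit false

noncomputable section

namespace Fermat.Agent.S56.EA

open Fermat.Agent.S55 Fermat.Agent.S55.Places ExtCitation Module

variable {p : ℕ} [Fact p.Prime]

variable {k : Type} [Field k] [Finite k] [Algebra (ZMod p) k]

/-- `C * C = 1`, `det C = -1` ⟹ `trace C = 0`. -/
lemma FinalB_trace_eq_zero {K : Type} [Field K] (C : M2 K) (h1 : C * C = 1) (h2 : C.det = -1) :
    C.trace = 0 := by
  have e00 := congrFun (congrFun h1 0) 0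
  have e11 := congrFun (congrFun h1 1) 1
  rw [Matrix.mul_apply, Fin.sum_univ_two, Matrix.one_apply_eq] at e00 e11
  rw [Matrix.det_fin_two] at h2
  rw [Matrix.trace_fin_two]
  have h3 : (C 0 0 + C 1 1) ^ 2 = 0 := by
    linear_combination e00 + e11 + 2 * h2
  exact pow_eq_zero_iff (two_ne_zero) |>.1 h3

/-- kernel of the transpose. -/
lemma FinalB_finrank_ker_dualMap {K V : Type} [Field K] [AddCommGroup V] [Module K V]
    [FiniteDimensional K V] (f : V →ₗ[K] V) :
    finrank K (LinearMap.ker f.dualMap) = finrank K (LinearMap.ker f) := by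
  have h1 := LinearMap.finrank_range_add_finrank_ker f
  have h2 := LinearMap.finrank_range_add_finrank_ker f.dualMap
  have h3 := LinearMap.finrank_range_dualMap_eq_finrank_range f
  have h4 : finrank K (Module.Dual K V) = finrank K V := Subspace.dual_finrank_eq
  omega

/-- `dim (W')^{c=-1} ≥ f` for `W = ad⁰`.
Proof: `c := complexConjugation`, `C := M c`; `C * C = 1`, `det C = -1` (`hM.det`, `cycloChar_complexConjugation`), so by
Cayley-Hamilton (`Matrix.charpoly_two`/explicit 2x2) `trace C = 0`.  `(W' c + 1) φ = φ - φ ∘ W c = φ ∘ (1 - W c)`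
(`ω c = -1`, `c⁻¹ = c`).  So `ker (W' c + 1)` = annihilator of `range (1 - W c)`, of dimension
`dim W - rank (1 - W c) = dim ker (1 - W c)`, and `a ↦ a • C`, `k → ker (1 - W c)` is `𝔽_p`-linear injective. -/
theorem le_finrank_ker_dualT (hp2 : p ≠ 2) (M : GQ →* M2 k) (hM : ResHyp p M) :
    finrank (ZMod p) k ≤ finrank (ZMod p)
      ↥(LinearMap.ker (((ad0 p M).dual.twist (cycloChar p)) complexConjugation + 1)) := by
  set c := complexConjugation with hc
  set C := M c with hC
  have hcc : c * c = 1 := complexConjugation_mul_self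
  have hcinv : c⁻¹ = c := inv_eq_of_mul_eq_one_left hcc
  have hCC : C * C = 1 := by rw [hC, ← map_mul, hcc, map_one]
  have hdet : C.det = -1 := by
    rw [hC, hM.det, cycloChar_complexConjugation]
    simp
  have htr : C.trace = 0 := FinalB_trace_eq_zero C hCC hdet
  have hC0 : C ≠ 0 := by
    intro h0
    rw [h0, zero_mul] at hCC
    exact zero_ne_one hCC
  have hmap : ((ad0 p M).dual.twist (cycloChar p)) c + 1 = (1 - ad0 p M c).dualMap := by
    ext φ x
    rw [LinearMap.add_apply, Representation.twist_apply_apply, cycloChar_complexConjugation,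
      Representation.dual_apply, hcinv]
    simp only [Units.val_neg, Units.val_one, neg_smul, one_smul,
      Module.End.one_apply, LinearMap.dualMap_apply, LinearMap.sub_apply, map_sub,
      Module.Dual.transpose_apply]
    rw [LinearMap.add_apply, LinearMap.neg_apply, LinearMap.comp_apply]
    abel
  rw [hmap, FinalB_finrank_ker_dualMap]
  let j : k →ₗ[ZMod p] LinearMap.ker (1 - ad0 p M c) :=
    { toFun := fun a => ⟨⟨a • C, by
          rw [mem_Ad0, Matrix.trace_smul, htr, smul_zero]⟩, by
          rw [LinearMap.mem_ker, LinearMap.sub_apply, Module.End.one_apply, sub_eq_zero]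
          apply Subtype.ext
          rw [ad0_apply_coe, hcinv]
          show a • C = C * (a • C) * C
          rw [Matrix.mul_smul, Matrix.smul_mul, hCC, one_mul]⟩
      map_add' := fun a b => by
        apply Subtype.ext; apply Subtype.ext
        exact add_smul a b C
      map_smul' := fun r a => by
        apply Subtype.ext; apply Subtype.ext
        exact smul_assoc r a C }
  refine LinearMap.finrank_le_finrank_of_injective (f := j) ?_
  intro a b hab
  have h1 : a • C = b • C := congrArg (fun x : LinearMap.ker (1 - ad0 p M c) =>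
    ((x : Ad0 p k) : M2 k)) hab
  have h2 : (a - b) • C = 0 := by rw [sub_smul, h1, sub_self]
  exact sub_eq_zero.1 ((smul_eq_zero.1 h2).resolve_right hC0)

end Fermat.Agent.S56.EA

end
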