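/-
S56 / EA / Final : `Target.euler` from (EC1) [helper98] and (EC2) [EA/Main].
-/
import Fermat.Agent.S56.EA.ChiM
import Fermat.Agent.S56.EA.Main
import Fermat.Agent.S56.EA.FinalB
import Fermat.Agent.S55.Z.Axioms

set_option autoImplicit false

noncomputable section

namespace Fermat.Agent.S56.EA

open Fermat.Agent.S55 Fermat.Agent.S55.Places ExtCitation Module

variable {p : ℕ} [Fact p.Prime]

/-- **(EC1)** for the open normal subgroup `N ≤ ker ω` of `G_ℚ`: there is a finite set `S⁺` of primes such that for all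
`Σ ⊇ S⁺` for which `N` is `Σ`-open:  `χ_Σ(F) + dim F^{c=-1} = 0` for `F = Fun ρ (G/U)`, `ρ` trivial on `N`,
`U = N⟨t⟩`, `t ^ m ∈ N`, `p ∤ m`. -/
def EC1 (hp2 : p ≠ 2) (N : Subgroup GQ) : Prop :=
  ∃ Splus : Finset Nat.Primes, ∀ (Sg : Finset Nat.Primes) (hpS : pPrime p ∈ Sg)
    (hN : (LS Sg).IsOpen N) (ax : (arithDatum p Sg hpS).Axioms), Splus ⊆ Sg →
    (eulerInvM ax hp2 N hN complexConjugation complexConjugation_mul_self).Base

variable {k : Type} [Field k] [Finite k] [Algebra (ZMod p) k]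

/-- **EULER** from (EC1). -/
theorem euler_of_EC1 (hp2 : p ≠ 2) (M : GQ →* M2 k) (hM : ResHyp p M) (h : EC1 hp2 M.ker) :
    ∃ Splus : Finset Nat.Primes, ∀ (Sg : Finset Nat.Primes) (hpS : pPrime p ∈ Sg),
      Splus ⊆ Sg → UnramOutside M Sg →
      (arithDatum p Sg hpS).chi ((arithDatum p Sg hpS).dualT (ad0 p M)) ≤
        - (finrank (ZMod p) k : ℤ) := by
  obtain ⟨Splus, hS⟩ := h
  refine ⟨Splus, fun Sg hpS hsub hur => ?_⟩
  obtain ⟨U, hU, hUM⟩ := Top.exists_isOpen_ker hM Sg hur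
  have hN : (LS Sg).IsOpen M.ker := (LS Sg).isOpen_mono hU (fun s hs => hUM s hs)
  obtain ⟨ax⟩ := arithAxioms hp2 Sg hpS
  have hbase := hS Sg hpS hN ax hsub
  have : Finite (GQ ⧸ M.ker) := (LS Sg).finite_quotient hN
  have h0 := hbase.eq_zero (ρ := (ad0 p M).dual.twist (cycloChar p)) (dualT_ad0_trivial_on M hM)
  rw [eulerInvM_e] at h0
  have h1 := le_finrank_ker_dualT hp2 M hM
  have h2 : (finrank (ZMod p) k : ℤ) ≤ (finrank (ZMod p)
      ↥(LinearMap.ker (((ad0 p M).dual.twist (cycloChar p)) complexConjugation + 1)) : ℤ) := by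
    exact_mod_cast h1
  have h3 : (arithDatum p Sg hpS).chi ((arithDatum p Sg hpS).dualT (ad0 p M)) =
      (arithDatum p Sg hpS).chi ((ad0 p M).dual.twist (cycloChar p)) := rfl
  rw [h3]
  linarith

end Fermat.Agent.S56.EA

end
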